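import Fermat.Agent.SelbergLindelof.Lines

/-!
# The nonvanishing of the local factors is needed for the value `1`

`1 + 2 · 4 ^ (-s)` and `1 + 3 · 9 ^ (-s)` are multiplicative, have functional equations of degree
`0`, and neither takes the value `1`.
-/

set_option autoImplicit false

noncomputable section

open Complex
open scoped Real ComplexConjugate
open FA.DegreeGap (HasFunctionalEquation gammaFactor)

namespace FA.SelbergValues

/-- `1` at `1` and `p` at `p ^ 2`. -/
def squareCoeff (p n : ℕ) : ℂ := if n = 1 then 1 else if n = p ^ 2 then (p : ℂ) else 0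

/-- `1 + p · p ^ (-2 s)`. -/
def squareSeries (p : ℕ) (s : ℂ) : ℂ := 1 + p * cexp (-(2 * (Real.log p : ℝ) * s))

variable {p : ℕ}

theorem hasSum_squareCoeff (hp : p.Prime) (s : ℂ) :
    LSeriesHasSum (squareCoeff p) s (squareSeries p s) := by
  have hp2 : 1 < p ^ 2 := Nat.one_lt_pow two_ne_zero hp.one_lt
  refine ((hasSum_ite_eq 1 (1 : ℂ)).add (hasSum_ite_eq (p ^ 2)
    ((p : ℂ) * cexp (-(2 * (Real.log p : ℝ) * s))))).congr_fun fun n => ?_
  rcases eq_or_ne n 1 with rfl | h1
  · simp [squareCoeff, hp2.ne]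
  rcases eq_or_ne n (p ^ 2) with rfl | h2
  · rw [LSeries.term_of_ne_zero (by omega), squareCoeff, if_neg h1, if_pos rfl,
      if_neg h1, if_pos rfl, zero_add, cpow_def_of_ne_zero (Nat.cast_ne_zero.2 (by omega)),
      ← Complex.natCast_log, Nat.cast_pow, Real.log_pow, Complex.exp_neg, div_eq_mul_inv]
    push_cast
    rfl
  rcases eq_or_ne n 0 with rfl | h0
  · simp [h2]
  simp [LSeries.term_of_ne_zero h0, squareCoeff, h1, h2]

theorem fe_square (hp : p.Prime) :
    HasFunctionalEquation (squareCoeff p) 0 (squareSeries p) (Fin.elim0 : Fin 0 → ℝ) Fin.elim0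
      (p : ℝ) 1 where
  summable s _ := (hasSum_squareCoeff hp s).LSeriesSummable
  differentiable := by unfold squareSeries; fun_prop
  eq_series s _ := by rw [(hasSum_squareCoeff hp s).LSeries_eq, pow_zero, one_mul]
  finite_order := by
    refine ⟨1, 1 + p + 2 * Real.log p, fun s => ?_⟩
    have hl := Real.log_natCast_nonneg p
    have h1 : ‖cexp (-(2 * (Real.log p : ℝ) * s))‖ ≤ Real.exp (2 * Real.log p * ‖s‖) := by
      rw [Complex.norm_exp]
      refine Real.exp_le_exp.2 ((Complex.re_le_norm _).trans_eq ?_)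
      rw [norm_neg, norm_mul, norm_mul, Complex.norm_ofNat, Complex.norm_real,
        Real.norm_of_nonneg hl]
    have h2 : 2 * Real.log p * ‖s‖ ≤ (1 + p + 2 * Real.log p) * (1 + ‖s‖) := by
      have := norm_nonneg s
      nlinarith [Nat.cast_nonneg (α := ℝ) p]
    calc ‖squareSeries p s‖ ≤ 1 + p * Real.exp (2 * Real.log p * ‖s‖) := by
          refine (norm_add_le _ _).trans (add_le_add norm_one.le ?_)
          rw [norm_mul, Complex.norm_natCast]
          exact mul_le_mul_of_nonneg_left h1 (Nat.cast_nonneg p)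
      _ ≤ (1 + p + 2 * Real.log p) * Real.exp ((1 + p + 2 * Real.log p) * (1 + ‖s‖) ^ 1) := by
          rw [pow_one]
          nlinarith [Real.exp_le_exp.2 h2, Real.one_le_exp (show 0 ≤ (1 + p + 2 * Real.log p) *
            (1 + ‖s‖) by positivity), Nat.cast_nonneg (α := ℝ) p,
            mul_le_mul_of_nonneg_left (Real.exp_le_exp.2 h2) (Nat.cast_nonneg (α := ℝ) p)]
  lam_pos j := j.elim0
  mu_re j := j.elim0
  Q_pos := Nat.cast_pos.2 hp.pos
  norm_omega := norm_one
  functional_equation s _ := by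
    have hp0 : (p : ℂ) ≠ 0 := Nat.cast_ne_zero.2 hp.ne_zero
    have hpe : (p : ℂ) = cexp ((Real.log p : ℝ) : ℂ) := by
      rw [Complex.natCast_log, Complex.exp_log hp0]
    rw [pow_zero, one_mul, one_mul, (hasSum_squareCoeff hp _).LSeries_eq]
    simp only [gammaFactor, squareSeries, Finset.univ_eq_empty, Finset.prod_empty, mul_one,
      ofReal_natCast, cpow_def_of_ne_zero hp0, ← Complex.natCast_log, map_mul, map_add, map_one,
      map_neg, ← Complex.exp_conj, map_sub, map_ofNat, conj_ofReal, Complex.conj_conj, map_natCast,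
      ← Complex.exp_neg]
    rw [hpe, mul_add, add_mul, mul_one, ← Complex.exp_add, ← Complex.exp_add, ← Complex.exp_add,
      ← Complex.exp_add, ← Complex.exp_add, add_comm]
    ring_nf
    rw [Complex.exp_zero]
    ring

theorem squareCoeff_mul (hp : p.Prime) (i j : ℕ) (hij : Nat.Coprime i j) :
    squareCoeff p (i * j) = squareCoeff p i * squareCoeff p j := by
  rcases eq_or_ne i 1 with rfl | hi
  · simp [squareCoeff]
  rcases eq_or_ne j 1 with rfl | hj
  · simp [squareCoeff]
  have hne : i * j ≠ 1 := fun e => hi (Nat.eq_one_of_mul_eq_one_right e)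
  have hmul : i * j ≠ p ^ 2 := fun e => by
    obtain ⟨k, -, hk⟩ := (Nat.dvd_prime_pow hp).1 (e ▸ dvd_mul_right i j)
    obtain ⟨l, -, hl⟩ := (Nat.dvd_prime_pow hp).1 (e ▸ dvd_mul_left j i)
    have hk0 : k ≠ 0 := fun h => hi (by rw [hk, h, pow_zero])
    have hl0 : l ≠ 0 := fun h => hj (by rw [hl, h, pow_zero])
    exact hp.ne_one (Nat.Coprime.eq_one_of_dvd (hij.coprime_dvd_left (hk ▸ dvd_pow_self p hk0))
      (hl ▸ dvd_pow_self p hl0))
  have hone : ¬(i = p ^ 2 ∧ j = p ^ 2) := fun ⟨e1, e2⟩ => by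
    rw [e1, e2, Nat.coprime_self] at hij
    exact (Nat.one_lt_pow two_ne_zero hp.one_lt).ne' hij
  rw [squareCoeff, if_neg hne, if_neg hmul, squareCoeff, if_neg hi, squareCoeff, if_neg hj]
  split_ifs with h1 h2 h3
  · exact absurd ⟨h1, h2⟩ hone
  · rw [mul_zero]
  · rw [zero_mul]
  · rw [mul_zero]

theorem squareSeries_sub_one_ne (hp : p.Prime) (s : ℂ) : squareSeries p s - 1 ≠ 0 := by
  rw [squareSeries, add_sub_cancel_left]
  exact mul_ne_zero (Nat.cast_ne_zero.2 hp.ne_zero) (Complex.exp_ne_zero _)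

theorem order_squareSeries (hp : p.Prime) (s : ℂ) :
    analyticOrderAt (fun z => FA.SelbergLindelof.lVal (squareSeries p) 0 z - 1) s = 0 := by
  have han : AnalyticAt ℂ (fun z => FA.SelbergLindelof.lVal (squareSeries p) 0 z - 1) s := by
    have hd : Differentiable ℂ (fun z => FA.SelbergLindelof.lVal (squareSeries p) 0 z - 1) := by
      simp only [FA.SelbergLindelof.lVal, pow_zero, div_one, squareSeries]
      fun_prop
    exact hd.analyticAt s
  refine han.analyticOrderAt_eq_zero.2 ?_
  simpa [FA.SelbergLindelof.lVal] using squareSeries_sub_one_ne hp s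

end FA.SelbergValues

end
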