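import Fermat.Agent.Nevanlinna.Counting

/-!
# Counting functions and means on circles

A lower bound for a logarithmic counting function from the mass in the discs of integer radius,
and the mean over `|z| = r` of `max (-re z) 0`.
-/

set_option autoImplicit false

noncomputable section

open Filter Topology Set Metric MeasureTheory Function.locallyFinsuppWithin
open scoped Real

namespace FA.SelbergValues

local notation "N[" D "]" => Function.locallyFinsuppWithin.logCounting D

variable {D : Function.locallyFinsupp ℂ ℤ}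

/-- A counting function grows at least like the mass in the disc times `log r`. -/
theorem logCounting_step (hD : 0 ≤ D) (F : Finset ℂ) {r r' : ℝ} (hr : 0 < r) (hle : r ≤ r')
    (hF : ∀ a ∈ F, ‖a‖ ≤ r) :
    (∑ a ∈ F, (D a : ℝ)) * (Real.log r' - Real.log r) ≤ N[D] r' - N[D] r := by
  classical
  obtain ⟨S, hS⟩ : ∃ S : Function.locallyFinsupp ℂ ℤ,
      S = ∑ a ∈ F, single a (D a) := ⟨_, rfl⟩
  have hSz : ∀ z, S z = if z ∈ F then D z else 0 := fun z => by
    simp [hS]
  have hrest : 0 ≤ D - S := le_def.2 fun z => by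
    rw [coe_sub, Pi.sub_apply, hSz]
    split_ifs
    · simp
    · simpa using le_def.1 hD z
  have hmono := logCounting_mono hrest hr (hr.trans_le hle) hle
  have hval : ∀ x, r ≤ x → N[S] x = ∑ a ∈ F, (D a : ℝ) * (Real.log x - Real.log ‖a‖) :=
    fun x hx => by
      rw [hS, map_sum, Finset.sum_apply]
      exact Finset.sum_congr rfl fun a ha =>
        logCounting_single_eq_log_sub_const ((hF a ha).trans hx)
  rw [map_sub, Pi.sub_apply, Pi.sub_apply, hval r le_rfl, hval r' hle] at hmono
  rw [Finset.sum_mul]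
  have : ∑ a ∈ F, (D a : ℝ) * (Real.log r' - Real.log r) =
      ∑ a ∈ F, (D a : ℝ) * (Real.log r' - Real.log ‖a‖) -
        ∑ a ∈ F, (D a : ℝ) * (Real.log r - Real.log ‖a‖) := by
    rw [← Finset.sum_sub_distrib]
    exact Finset.sum_congr rfl fun a _ => by ring
  linarith

/-- The counting function from the mass in the discs of integer radius. -/
theorem sum_le_logCounting (hD : 0 ≤ D) {n : ℕ → ℝ} {K : ℕ}
    (hn : ∀ k ∈ Finset.Ico 1 K, ∃ F : Finset ℂ, (∀ a ∈ F, ‖a‖ ≤ k) ∧ n k ≤ ∑ a ∈ F, (D a : ℝ)) :
    ∑ k ∈ Finset.Ico 1 K, n k / (k + 1) ≤ N[D] (max (K : ℝ) 1) := by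
  induction K with
  | zero => simpa using logCounting_nonneg hD le_rfl
  | succ K ih =>
    rcases Nat.eq_zero_or_pos K with rfl | hK
    · simpa using logCounting_nonneg hD le_rfl
    have hK1 : (1 : ℝ) ≤ K := by exact_mod_cast hK
    have ih' := ih fun k hk => hn k (Finset.Ico_subset_Ico_right K.le_succ hk)
    rw [max_eq_left hK1] at ih'
    obtain ⟨F, hF, hsum⟩ := hn K (Finset.mem_Ico.2 ⟨hK, K.lt_succ_self⟩)
    rw [Finset.sum_Ico_succ_top hK, Nat.cast_succ, max_eq_left (by linarith)]
    have h1 := logCounting_step hD F (r' := (K : ℝ) + 1) (by linarith) (by linarith) hF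
    have h0 : 0 ≤ ∑ a ∈ F, (D a : ℝ) :=
      Finset.sum_nonneg fun a _ => Int.cast_nonneg (by simpa using le_def.1 hD a)
    have hlog : 1 / ((K : ℝ) + 1) ≤ Real.log (K + 1) - Real.log K := by
      rw [← Real.log_div (by linarith) (by linarith)]
      refine le_trans (le_of_eq ?_)
        (Real.one_sub_inv_le_log_of_pos (div_pos (by linarith) (by linarith)))
      field_simp
      ring
    have h2 : n K / ((K : ℝ) + 1) ≤ (∑ a ∈ F, (D a : ℝ)) / ((K : ℝ) + 1) :=
      div_le_div_of_nonneg_right hsum (by linarith)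
    have h3 := mul_le_mul_of_nonneg_left hlog h0
    rw [mul_one_div] at h3
    linarith

/-- `∑_{k ≤ n} log k ≥ n log n - n`. -/
theorem sum_log_ge (n : ℕ) :
    (n : ℝ) * Real.log n - n ≤ ∑ k ∈ Finset.Ico 1 (n + 1), Real.log k := by
  induction n with
  | zero => simp
  | succ n ih =>
    rw [Finset.sum_Ico_succ_top (Nat.le_add_left 1 n)]
    push_cast
    rcases Nat.eq_zero_or_pos n with rfl | hn
    · simp
    have hn1 : (1 : ℝ) ≤ n := by exact_mod_cast hn
    have h := Real.log_le_sub_one_of_pos (x := ((n : ℝ) + 1) / n) (by positivity)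
    rw [Real.log_div (by linarith) (by linarith), add_div, div_self (by linarith),
      add_sub_cancel_left, le_div_iff₀ (by linarith)] at h
    nlinarith

/-- `x log x ≤ n log n + O x` for `x` just above `n`. -/
theorem xlogx_le_of_near {x : ℝ} {n : ℕ} (hn : 1 ≤ n) (h1 : (n : ℝ) ≤ x) (h2 : x ≤ n + 2) :
    x * Real.log x ≤ n * Real.log n + 3 * x + 2 := by
  have hn1 : (1 : ℝ) ≤ n := by exact_mod_cast hn
  have h := Real.log_le_sub_one_of_pos (x := x / n) (div_pos (by linarith) (by linarith))
  rw [Real.log_div (by linarith) (by linarith), le_sub_iff_add_le, le_div_iff₀ (by linarith)] at h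
  nlinarith [Real.log_le_sub_one_of_pos (x := x) (by linarith), Real.log_nonneg hn1,
    mul_le_mul_of_nonneg_right h2 (Real.log_nonneg (hn1.trans h1))]

/-- Poles in the unit disc give at most a multiple of `log r`. -/
theorem logCounting_le_single {n : ℤ} {e : ℂ} [DecidableEq ℂ]
    (h : D ≤ single e n) {r : ℝ} (hr : 1 ≤ r) (he : ‖e‖ ≤ r) :
    N[D] r ≤ n * (Real.log r - Real.log ‖e‖) :=
  (logCounting_le h hr).trans_eq (logCounting_single_eq_log_sub_const he)

theorem integral_abs_cos : ∫ x in (0 : ℝ)..2 * π, |Real.cos x| = 4 := by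
  have hper : Function.Periodic (fun x => |Real.cos x|) (2 * π) :=
    fun x => by simp [Real.cos_add_two_pi]
  have h := hper.intervalIntegral_add_eq 0 (-(π / 2))
  rw [zero_add, show -(π / 2) + 2 * π = 3 * π / 2 by ring] at h
  rw [h, ← intervalIntegral.integral_add_adjacent_intervals (b := π / 2)
    (Real.continuous_cos.abs.intervalIntegrable _ _)
    (Real.continuous_cos.abs.intervalIntegrable _ _)]
  have h1 : ∫ x in (-(π / 2))..(π / 2), |Real.cos x| = 2 := by
    rw [intervalIntegral.integral_congr (g := Real.cos) fun x hx => abs_of_nonneg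
      (Real.cos_nonneg_of_mem_Icc (by rwa [uIcc_of_le (by linarith [Real.pi_pos])] at hx)),
      integral_cos, Real.sin_pi_div_two, Real.sin_neg, Real.sin_pi_div_two]
    norm_num
  have h2 : ∫ x in (π / 2)..(3 * π / 2), |Real.cos x| = 2 := by
    rw [intervalIntegral.integral_congr (g := fun x => -Real.cos x) fun x hx => ?_,
      intervalIntegral.integral_neg, integral_cos, Real.sin_pi_div_two,
      show 3 * π / 2 = π / 2 + π by ring, Real.sin_add_pi, Real.sin_pi_div_two]
    · norm_num
    · rw [uIcc_of_le (by linarith [Real.pi_pos])] at hx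
      exact abs_of_nonpos (Real.cos_nonpos_of_pi_div_two_le_of_le hx.1 (by linarith [hx.2]))
  rw [h1, h2]
  norm_num

/-- The mean of `max (-re z) 0` over `|z| = r` is `r / π`. -/
theorem circleAverage_negRe {r : ℝ} (hr : 0 ≤ r) :
    Real.circleAverage (fun z : ℂ => max (-z.re) 0) 0 r = r / π := by
  have hre : ∀ θ : ℝ, (circleMap 0 r θ).re = r * Real.cos θ := fun θ => by
    simp [circleMap, Complex.exp_ofReal_mul_I_re]
  have hmax : ∀ θ : ℝ, max (-(r * Real.cos θ)) 0 = r / 2 * (|Real.cos θ| - Real.cos θ) :=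
    fun θ => by
      rcases le_total 0 (Real.cos θ) with hc | hc
      · rw [abs_of_nonneg hc, sub_self, mul_zero,
          max_eq_right (neg_nonpos.2 (mul_nonneg hr hc))]
      · rw [abs_of_nonpos hc,
          max_eq_left (neg_nonneg.2 (mul_nonpos_of_nonneg_of_nonpos hr hc))]
        ring
  rw [Real.circleAverage_def]
  simp only [hre, hmax]
  rw [intervalIntegral.integral_const_mul, intervalIntegral.integral_sub
    (Real.continuous_cos.abs.intervalIntegrable _ _) (Real.continuous_cos.intervalIntegrable _ _),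
    integral_abs_cos, integral_cos, Real.sin_two_pi, Real.sin_zero, smul_eq_mul]
  field_simp
  ring

end FA.SelbergValues

end
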