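import Fermat.Agent.Nevanlinna.Counting

/-!
# Order one and finitely many zeros and poles

A meromorphic function with `T (r) = O (r log r)` and a finite divisor is a rational function times
`exp (α z)`.
-/

set_option autoImplicit false

noncomputable section

open Complex Filter Topology Set Metric MeromorphicOn
open ValueDistribution
open Function.locallyFinsuppWithin (negPart_apply)
open scoped Real

namespace FA.SelbergValues

theorem logCounting_top_of_analytic {g : ℂ → ℂ} (hg : Differentiable ℂ g) :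
    ValueDistribution.logCounting g ⊤ = 0 := by
  rw [logCounting_top]
  have h0 : (divisor g univ)⁻ = 0 := negPart_eq_zero.2
    (Function.locallyFinsuppWithin.le_def.2 fun z =>
      (hg.differentiableOn.analyticOnNhd isOpen_univ).divisor_nonneg z)
  rw [h0, map_zero]

/-- **No zeros and order one.** -/
theorem exists_exp_linear {g : ℂ → ℂ} (hd : Differentiable ℂ g) (hne : ∀ z, g z ≠ 0) {A B R₀ : ℝ}
    (hT : ∀ R : ℝ, R₀ ≤ R → proximity g ⊤ R ≤ A * (R * Real.log R) + B * R) :
    ∃ α : ℂ, ∀ z, g z = g 0 * cexp (α * z) := by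
  have hm : Meromorphic g := fun z => (hd.analyticAt z).meromorphicAt
  obtain ⟨q, hq⟩ : ∃ q : ℂ → ℂ, q = logDeriv g := ⟨_, rfl⟩
  have hqd : Differentiable ℂ q := hq ▸ fun z =>
    ((hd.analyticAt z).deriv.div (hd.analyticAt z) (hne z)).differentiableAt
  obtain ⟨K, hK⟩ : ∃ K, K = FA.Nevanlinna.invConst g := ⟨_, rfl⟩
  have hK0 : 0 ≤ K := hK ▸ FA.Nevanlinna.invConst_nonneg g
  have hb : ∀ R : ℝ, max R₀ 2 ≤ R → ∀ z : ℂ, ‖z‖ ≤ R / 2 →
      ‖q z‖ ≤ 16 * |A| * Real.log R + (16 * |B| + 4 * K) := by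
    intro R hR z hz
    have hR2 : 2 ≤ R := (le_max_right _ _).trans hR
    have hR0 : 0 < R := by linarith
    obtain ⟨G, hG, hderiv, hre⟩ := FA.Nevanlinna.exists_log_of_ne_zero hR0
      (fun w _ => hd.analyticAt w) fun w _ => hne w
    have h1 := FA.Nevanlinna.norm_deriv_le_circleAverage hG (half_lt_self hR0) hz
    have h2 : Real.circleAverage (fun w => |(G w).re|) 0 R ≤
        2 * characteristic g ⊤ R + K := by
      rw [Real.circleAverage_congr_sphere (f₂ := fun w => |Real.log ‖g w‖|) fun w hw => by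
        rw [abs_of_pos hR0] at hw
        simp only [hre w (sphere_subset_closedBall hw)]]
      exact hK ▸ FA.Nevanlinna.circleAverage_abs_log_le hm (by linarith)
    have h3 : characteristic g ⊤ R ≤ |A| * (R * Real.log R) + |B| * R := by
      have hl : 0 ≤ R * Real.log R := mul_nonneg hR0.le (Real.log_nonneg (by linarith))
      rw [characteristic, Pi.add_apply, logCounting_top_of_analytic hd, Pi.zero_apply, add_zero]
      exact (hT R ((le_max_left _ _).trans hR)).trans (add_le_add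
        (mul_le_mul_of_nonneg_right (le_abs_self A) hl)
        (mul_le_mul_of_nonneg_right (le_abs_self B) hR0.le))
    rw [hderiv z (mem_ball_zero_iff.2 (by linarith)), ← hq,
      show 2 * R / (R - R / 2) ^ 2 = 8 / R by field_simp; ring] at h1
    refine h1.trans ((mul_le_mul_of_nonneg_left (h2.trans (add_le_add
      (mul_le_mul_of_nonneg_left h3 zero_le_two) le_rfl)) (by positivity)).trans ?_)
    rw [div_mul_eq_mul_div, div_le_iff₀ hR0]
    nlinarith [mul_le_mul_of_nonneg_left hR2 hK0]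
  have hconst : ∀ z, deriv q z = 0 := by
    intro z
    refine norm_le_zero_iff.1 (ge_of_tendsto (x := atTop) (f := fun ρ : ℝ =>
      16 * |A| * (Real.log ρ / ρ) + (16 * |A| * Real.log 4 + (16 * |B| + 4 * K)) * ρ⁻¹) ?_ ?_)
    · simpa using ((Real.isLittleO_log_id_atTop.tendsto_div_nhds_zero).const_mul (16 * |A|)).add
        (tendsto_inv_atTop_zero.const_mul (16 * |A| * Real.log 4 + (16 * |B| + 4 * K)))
    · filter_upwards [eventually_ge_atTop (max ‖z‖ (max (max R₀ 2) 1))] with ρ hρ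
      simp only [max_le_iff] at hρ
      have hρ0 : 0 < ρ := by linarith
      have h1 := Complex.norm_deriv_le_of_forall_mem_sphere_norm_le hρ0 hqd.diffContOnCl
        fun w hw => hb (4 * ρ) (max_le (by linarith) (by linarith)) w (by
          rw [mem_sphere_iff_norm] at hw
          linarith [norm_le_norm_add_norm_sub' w z])
      refine h1.trans (le_of_eq ?_)
      rw [Real.log_mul four_ne_zero hρ0.ne']
      ring
  have hlin : ∀ z, q z = q 0 := fun z => is_const_of_deriv_eq_zero hqd hconst z 0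
  refine ⟨q 0, fun z => ?_⟩
  have hd0 : ∀ w, HasDerivAt (fun w => g w * cexp (-(q 0 * w))) 0 w := fun w => by
    refine ((hd w).hasDerivAt.mul ((hasDerivAt_id' w).const_mul (q 0)).neg.cexp).congr_deriv ?_
    have h1 := hlin w
    rw [hq, logDeriv_apply, div_eq_iff (hne w)] at h1
    simp only [Pi.neg_apply]
    rw [h1, hq, logDeriv_apply]
    ring
  have := is_const_of_deriv_eq_zero (fun w => (hd0 w).differentiableAt)
    (fun w => (hd0 w).deriv) z 0
  simp only [mul_zero, neg_zero, Complex.exp_zero, mul_one] at this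
  rw [← this, mul_assoc, ← Complex.exp_add, neg_add_cancel, Complex.exp_zero, mul_one]

/-- A product of powers of `z - u` on a large circle. -/
theorem posLog_prod_zpow_le (F : Finset ℂ) (d : ℂ → ℤ) {s : ℂ} (hs : ∀ u ∈ F, ‖u‖ + 1 ≤ ‖s‖)
    (h1 : 1 ≤ ‖s‖) :
    Real.posLog ‖∏ u ∈ F, (s - u) ^ d u‖ ≤ (∑ u ∈ F, |(d u : ℝ)|) * Real.log (2 * ‖s‖) := by
  have hl : 0 ≤ Real.log (2 * ‖s‖) := Real.log_nonneg (by linarith)
  rw [Real.posLog_apply]
  refine max_le (mul_nonneg (Finset.sum_nonneg fun _ _ => abs_nonneg _) hl) ?_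
  have hne : ∀ u ∈ F, 1 ≤ ‖s - u‖ ∧ ‖s - u‖ ≤ 2 * ‖s‖ := fun u hu =>
    ⟨by linarith [norm_sub_norm_le s u, hs u hu], by linarith [norm_sub_le s u, hs u hu]⟩
  rw [norm_prod, Real.log_prod fun u hu => ?_, Finset.sum_mul]
  · refine Finset.sum_le_sum fun u hu => ?_
    obtain ⟨h2, h3⟩ := hne u hu
    rw [norm_zpow, Real.log_zpow]
    refine (le_abs_self _).trans ?_
    rw [abs_mul, abs_of_nonneg (Real.log_nonneg h2)]
    exact mul_le_mul_of_nonneg_left (Real.log_le_log (by linarith) h3) (abs_nonneg _)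
  · rw [norm_zpow]
    exact zpow_ne_zero _ (by linarith [(hne u hu).1])

/-- **Finitely many zeros and poles and order one.** -/
theorem exists_exp_factor {G : ℂ → ℂ} (hG : Meromorphic G) (hord : ∀ z, meromorphicOrderAt G z ≠ ⊤)
    (hfin : (divisor G univ).support.Finite) {A B : ℝ}
    (hT : ∀ R : ℝ, 2 ≤ R → proximity G ⊤ R ≤ A * (R * Real.log R) + B * R) :
    (∃ H α : ℂ, H ≠ 0 ∧ G =ᶠ[codiscrete ℂ]
      fun z => (∏ u ∈ hfin.toFinset, (z - u) ^ divisor G univ u) * (H * cexp (α * z))) ∧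
      ∃ B' R₁ : ℝ, ∀ R : ℝ, R₁ ≤ R → proximity G ⊤ R ≤ B' * R := by
  obtain ⟨g, hga, hgne, hgeq⟩ := hG.meromorphicOn.extract_zeros_poles (fun u => hord u) hfin
  obtain ⟨d, hd⟩ : ∃ d : ℂ → ℤ, d = fun u => divisor G univ u := ⟨_, rfl⟩
  obtain ⟨F, hF⟩ : ∃ F : Finset ℂ, F = hfin.toFinset := ⟨_, rfl⟩
  obtain ⟨P, hP⟩ : ∃ P : ℂ → ℂ, P = fun z => ∏ u ∈ F, (z - u) ^ d u := ⟨_, rfl⟩
  obtain ⟨P', hP'⟩ : ∃ P' : ℂ → ℂ, P' = fun z => ∏ u ∈ F, (z - u) ^ (-d u) := ⟨_, rfl⟩
  obtain ⟨M, hM⟩ : ∃ M, M = ∑ u ∈ F, |(d u : ℝ)| := ⟨_, rfl⟩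
  have hM0 : 0 ≤ M := hM ▸ Finset.sum_nonneg fun _ _ => abs_nonneg _
  have hgd : Differentiable ℂ g := fun z => (hga z (mem_univ z)).differentiableAt
  have hgm : Meromorphic g := fun z => (hga z (mem_univ z)).meromorphicAt
  have hPm : Meromorphic P := hP ▸ fun z => by fun_prop
  have hP'm : Meromorphic P' := hP' ▸ fun z => by fun_prop
  have hprod : (∏ᶠ u, fun z => (z - u) ^ divisor G univ u) = P := by
    rw [finprod_eq_prod_of_mulSupport_subset _ (s := F) ?_]
    · funext z
      simp [hP, hd]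
    · rw [hF, Set.Finite.coe_toFinset]
      intro u hu
      simp only [Function.mem_mulSupport, Function.mem_support] at hu ⊢
      exact fun h0 => hu (by funext z; simp [h0])
  have heq : G =ᶠ[codiscrete ℂ] P * g := by
    filter_upwards [hgeq] with z hz
    rw [hz, ← hprod]
    rfl
  have hinv : g =ᶠ[codiscrete ℂ] P' * G := by
    filter_upwards [heq, (divisor G univ).eq_zero_codiscreteWithin] with z hz hz0
    rw [Pi.mul_apply, hz, Pi.mul_apply, hP, hP', ← mul_assoc, ← Finset.prod_mul_distrib,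
      Finset.prod_eq_one fun u hu => ?_, one_mul]
    have hzu : z - u ≠ 0 := sub_ne_zero.2 fun e => by
      rw [hF, Set.Finite.mem_toFinset, Function.mem_support, ← e] at hu
      exact hu hz0
    rw [← zpow_add₀ hzu, neg_add_cancel, zpow_zero]
  obtain ⟨R₁, hR₁⟩ : ∃ R₁, R₁ = 2 + ∑ u ∈ F, ‖u‖ := ⟨_, rfl⟩
  have hsum : 0 ≤ ∑ u ∈ F, ‖u‖ := Finset.sum_nonneg fun _ _ => norm_nonneg _
  have hside : ∀ (e : ℂ → ℤ), (∀ u ∈ F, |(e u : ℝ)| = |(d u : ℝ)|) → ∀ R : ℝ, R₁ ≤ R →
      proximity (fun z => ∏ u ∈ F, (z - u) ^ e u) ⊤ R ≤ 2 * M * R := fun e he R hR => by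
    have hm : Meromorphic (fun z => ∏ u ∈ F, (z - u) ^ e u) := fun z => by fun_prop
    rw [proximity_top]
    refine Real.circleAverage_mono_on_of_le_circle
      hm.meromorphicOn.circleIntegrable_posLog_norm fun s hs => ?_
    rw [abs_of_nonneg (by linarith), mem_sphere, dist_zero_right] at hs
    refine (posLog_prod_zpow_le F e (fun u hu => ?_) (by linarith)).trans ?_
    · have := Finset.single_le_sum (f := fun u : ℂ => ‖u‖) (fun u _ => norm_nonneg u) hu
      linarith
    · rw [Finset.sum_congr rfl he, ← hM, hs]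
      have : Real.log (2 * R) ≤ 2 * R :=
        (Real.log_le_sub_one_of_pos (by linarith)).trans (by linarith)
      linarith [mul_le_mul_of_nonneg_left this hM0]
  have hgT : ∀ R : ℝ, R₁ ≤ R → proximity g ⊤ R ≤ A * (R * Real.log R) + (B + 2 * M) * R :=
    fun R hR => by
      rw [proximity_congr_codiscrete hinv (by linarith)]
      have h1 := proximity_mul_top_le hP'm hG R
      have h2 := hside (fun u => -d u) (fun u _ => by simp) R hR
      rw [← hP'] at h2
      have h3 := hT R (by linarith)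
      simp only [Pi.add_apply] at h1
      linarith
  obtain ⟨α, hα⟩ := exists_exp_linear hgd (fun z => hgne ⟨z, mem_univ z⟩) hgT
  refine ⟨⟨g 0, α, hgne ⟨0, mem_univ 0⟩, ?_⟩,
    2 * M + (|Real.log ‖g 0‖| + ‖α‖), R₁, fun R hR => ?_⟩
  · filter_upwards [heq] with z hz
    rw [hz, Pi.mul_apply, hP, hα z, hF]
    simp [hd]
  · rw [proximity_congr_codiscrete heq (by linarith)]
    have h1 := proximity_mul_top_le hPm hgm R
    have h2 := hside d (fun _ _ => rfl) R hR
    rw [← hP] at h2
    have h3 : proximity g ⊤ R ≤ (|Real.log ‖g 0‖| + ‖α‖) * R := by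
      rw [proximity_top]
      refine Real.circleAverage_mono_on_of_le_circle
        hgm.meromorphicOn.circleIntegrable_posLog_norm fun s hs => ?_
      rw [abs_of_nonneg (by linarith), mem_sphere, dist_zero_right] at hs
      rw [Real.posLog_apply]
      refine max_le (mul_nonneg (by positivity) (by linarith)) ?_
      rw [hα s, norm_mul, Complex.norm_exp, Real.log_mul
        (norm_ne_zero_iff.2 (hgne ⟨0, mem_univ 0⟩)) (Real.exp_pos _).ne', Real.log_exp]
      have h4 : (α * s).re ≤ ‖α‖ * R := hs ▸ (Complex.re_le_norm _).trans_eq (norm_mul α s)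
      have h5 : |Real.log ‖g 0‖| ≤ |Real.log ‖g 0‖| * R :=
        le_mul_of_one_le_right (abs_nonneg _) (by linarith)
      linarith [le_abs_self (Real.log ‖g 0‖)]
    simp only [Pi.add_apply] at h1
    linarith

end FA.SelbergValues

end
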