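import Fermat.Agent.SelbergValues.Counting
import Fermat.Agent.Nevanlinna.SecondMain
import Fermat.Agent.SelbergLindelof.Lines
import Fermat.Agent.SelbergZeroCount.Main

/-!
# The characteristic of an element of the Selberg class

`T (r, L) = (d / π) r log r + O r`: from above by the functional equation and `|Γ w| ≤ Γ (re w)`,
from below by the number of zeros.
-/

set_option autoImplicit false

noncomputable section

open Complex Filter Topology Set Metric MeromorphicOn
open ValueDistribution
open Function.locallyFinsuppWithin (posPart_apply negPart_apply)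
open scoped Real ComplexConjugate
open FA.DegreeGap (HasFunctionalEquation degree degree_nonneg gammaFactor exists_norm_inv_Gamma_le
  Gamma_le_rpow norm_lSeries_le)
open FA.SelbergClass (HasEulerProduct)
open FA.SelbergLindelof (lVal lVal_eq_series differentiableAt_lVal)
open FA.SelbergZeroCount (stripCount mainTerm finite_stripZeros stripCount_eq_sum exists_stripCount
  order_div_pow lSeries_ne_zero exists_strip_bound)

namespace FA.SelbergValues

variable {a : ℕ → ℂ} {m : ℕ} {E : ℂ → ℂ} {r : ℕ} {lam : Fin r → ℝ} {mu : Fin r → ℂ} {Q : ℝ}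
  {omega : ℂ}

theorem posLog_le_of_le_exp {x y : ℝ} (hx : 0 ≤ x) (hy : 0 ≤ y) (h : x ≤ Real.exp y) :
    Real.posLog x ≤ y := by
  rw [Real.posLog_apply]
  refine max_le hy ?_
  rcases hx.eq_or_lt with rfl | hx'
  · rwa [Real.log_zero]
  · exact (Real.log_le_iff_le_exp hx').2 h

/-- One Gamma factor of the ratio, far to the left. -/
theorem exists_factor_exp {l : ℝ} (hl : 0 < l) {μ : ℂ} (hμ : 0 ≤ μ.re) :
    ∃ B : ℝ, 0 ≤ B ∧ ∀ s : ℂ, s.re ≤ -1 → 1 / 2 ≤ l * (1 - s.re) →
      ‖Complex.Gamma (l * (1 - conj s) + μ)‖ * ‖(Complex.Gamma (l * s + μ))⁻¹‖ ≤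
        Real.exp (2 * l * -s.re * Real.log ‖s‖ + B * ‖s‖) := by
  obtain ⟨C, hC, hinv⟩ := exists_norm_inv_Gamma_le
  obtain ⟨K, hK⟩ : ∃ K, K = 2 * l + ‖μ‖ + 3 := ⟨_, rfl⟩
  have hμn := Complex.re_le_norm μ
  have hμ0 := norm_nonneg μ
  have hK1 : 1 ≤ K := by linarith
  have hlK : 0 ≤ Real.log K := Real.log_nonneg hK1
  refine ⟨Real.log 2 + Real.log (C + 1) + 2 * l * Real.log K +
    (l + ‖μ‖ + 2) * (1 + Real.log K) + π * (l + ‖μ‖), ?_, fun s hs hl' => ?_⟩
  · have := Real.log_nonneg (show (1 : ℝ) ≤ C + 1 by linarith)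
    have := Real.log_nonneg (one_le_two (α := ℝ))
    positivity
  obtain ⟨R, hR⟩ : ∃ R, R = ‖s‖ := ⟨_, rfl⟩
  have hσR : -s.re ≤ R := hR ▸ (neg_le_abs _).trans (Complex.abs_re_le_norm s)
  have htR : |s.im| ≤ R := hR ▸ Complex.abs_im_le_norm s
  have hR1 : 1 ≤ R := by linarith
  have hKR : 1 ≤ K * R := one_le_mul_of_one_le_of_one_le hK1 hR1
  obtain ⟨A, hA⟩ : ∃ A, A = l * (1 - s.re) + μ.re := ⟨_, rfl⟩
  obtain ⟨x, hx⟩ : ∃ x, x = l * s.re + μ.re := ⟨_, rfl⟩
  obtain ⟨P, hP⟩ : ∃ P, P = l * -s.re + l + ‖μ‖ := ⟨_, rfl⟩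
  have hA2 : 1 / 2 ≤ A := by linarith
  have hAP : A ≤ P := by rw [hA, hP]; linarith
  have hlσ : l * -s.re ≤ l * R := mul_le_mul_of_nonneg_left hσR hl.le
  have hlR : l ≤ l * R := le_mul_of_one_le_right hl.le hR1
  have hμR : ‖μ‖ ≤ ‖μ‖ * R := le_mul_of_one_le_right hμ0 hR1
  have h1 : ‖Complex.Gamma (l * (1 - conj s) + μ)‖ ≤ 2 * (K * R) ^ P := by
    have hre : (l * (1 - conj s) + μ).re = A := by simp [hA]
    refine (HeckeBS.norm_Gamma_le_re (by rw [hre]; linarith)).trans ?_
    rw [hre]
    refine (Gamma_le_rpow hA2).trans (mul_le_mul_of_nonneg_left ((Real.rpow_le_rpow (by linarith)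
      ?_ (by linarith)).trans (Real.rpow_le_rpow_of_exponent_le hKR hAP)) zero_le_two)
    rw [hA, hK]
    linarith
  have h2 : ‖(Complex.Gamma (l * s + μ))⁻¹‖ ≤
      (C + 1) * (K * R) ^ (l * -s.re + 2) * Real.exp (π * (l + ‖μ‖) * R) := by
    have hre : (l * s + μ).re = x := by simp [hx]
    have him : (l * s + μ).im = l * s.im + μ.im := by simp
    refine (hinv _).trans ?_
    rw [hre, him]
    refine mul_le_mul (mul_le_mul (by linarith) ((Real.rpow_le_rpow (by positivity) ?_
      (by positivity)).trans (Real.rpow_le_rpow_of_exponent_le hKR ?_)) (by positivity)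
      (by linarith)) (Real.exp_le_exp.2 ?_) (Real.exp_nonneg _) (by positivity)
    · have : |x| ≤ l * R + ‖μ‖ := by
        rw [hx, abs_le]
        constructor <;> nlinarith
      rw [hK]
      linarith
    · refine add_le_of_le_sub_right (max_le ?_ ?_) <;> rw [hx] at * <;> nlinarith
    · rw [mul_assoc]
      refine mul_le_mul_of_nonneg_left ?_ Real.pi_pos.le
      calc |l * s.im + μ.im| ≤ l * |s.im| + ‖μ‖ := (abs_add_le _ _).trans
            (add_le_add (by rw [abs_mul, abs_of_pos hl]) (Complex.abs_im_le_norm μ))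
        _ ≤ (l + ‖μ‖) * R := by nlinarith
  refine (mul_le_mul h1 h2 (norm_nonneg _) (by positivity)).trans ?_
  rw [← hR, show 2 * (K * R) ^ P * ((C + 1) * (K * R) ^ (l * -s.re + 2) *
      Real.exp (π * (l + ‖μ‖) * R)) = 2 * (C + 1) * ((K * R) ^ P * (K * R) ^ (l * -s.re + 2)) *
      Real.exp (π * (l + ‖μ‖) * R) by ring, ← Real.rpow_add (by linarith),
    Real.rpow_def_of_pos (by linarith), Real.log_mul (by linarith) (by linarith),
    ← Real.exp_log (show 0 < 2 * (C + 1) by linarith),
    Real.log_mul two_ne_zero (by linarith), ← Real.exp_add, ← Real.exp_add, Real.exp_le_exp, hP]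
  have h3 : Real.log R ≤ R := (Real.log_le_sub_one_of_pos (by linarith)).trans (by linarith)
  have h4 : 0 ≤ Real.log 2 + Real.log (C + 1) :=
    add_nonneg (Real.log_nonneg one_le_two) (Real.log_nonneg (by linarith))
  have h5 := mul_le_mul_of_nonneg_left h3 (show 0 ≤ l + ‖μ‖ + 2 by linarith)
  have h6 := le_mul_of_one_le_right h4 hR1
  have h7 := le_mul_of_one_le_right (mul_nonneg (show 0 ≤ l + ‖μ‖ + 2 by linarith) hlK) hR1
  have h8 := mul_le_mul_of_nonneg_right hlσ hlK
  linarith

/-- **The pointwise bound on circles.** -/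
theorem exists_posLog_le (h : HasFunctionalEquation a m E lam mu Q omega) :
    ∃ B : ℝ, 0 ≤ B ∧ ∀ s : ℂ, 2 ≤ ‖s‖ →
      Real.posLog ‖lVal E m s‖ ≤ degree lam * max (-s.re) 0 * Real.log ‖s‖ + B * ‖s‖ := by
  choose Bj hBj hfac using fun j => exists_factor_exp (h.lam_pos j) (h.mu_re j)
  obtain ⟨σ₁, hσ₁⟩ : ∃ σ₁, σ₁ = 1 + ∑ j, 1 / lam j := ⟨_, rfl⟩
  have hsum0 : 0 ≤ ∑ j, 1 / lam j :=
    Finset.sum_nonneg fun j _ => (one_div_pos.2 (h.lam_pos j)).le
  obtain ⟨k, C, hC, hstrip⟩ := exists_strip_bound h (A := -σ₁) (B := 2) (by linarith) (by norm_num)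
  obtain ⟨S, hS⟩ : ∃ S, S = ∑' n, ‖LSeries.term a ((2 : ℝ) : ℂ) n‖ := ⟨_, rfl⟩
  have hS0 : 0 ≤ S := hS ▸ tsum_nonneg fun _ => norm_nonneg _
  have hd : 0 ≤ degree lam := degree_nonneg h
  refine ⟨S + C + k + 3 * |Real.log Q| + ∑ j, Bj j, ?_, fun s hs => ?_⟩
  · have := Finset.sum_nonneg fun j (_ : j ∈ Finset.univ) => hBj j
    positivity
  obtain ⟨R, hR⟩ : ∃ R, R = ‖s‖ := ⟨_, rfl⟩
  have hBsum : 0 ≤ ∑ j, Bj j := Finset.sum_nonneg fun j _ => hBj j
  have hR0 : 0 ≤ Real.log R := Real.log_nonneg (by linarith)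
  have hmain : 0 ≤ degree lam * max (-s.re) 0 * Real.log R := by positivity
  have hQ0 := abs_nonneg (Real.log Q)
  rw [← hR]
  rw [← hR] at hs
  refine posLog_le_of_le_exp (norm_nonneg _) (by positivity) ?_
  have hSexp : S ≤ Real.exp (S * R) := by
    have := le_mul_of_one_le_right hS0 (show 1 ≤ R by linarith)
    linarith [Real.add_one_le_exp (S * R)]
  have hCexp : C ≤ Real.exp (C * R) := by
    have := le_mul_of_one_le_right hC (show 1 ≤ R by linarith)
    linarith [Real.add_one_le_exp (C * R)]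
  have hzero : 0 ≤ (C + k + 3 * |Real.log Q| + ∑ j, Bj j) * R := by positivity
  rcases le_or_gt 2 s.re with h2 | h2
  · rw [lVal_eq_series h (by linarith)]
    refine (((norm_lSeries_le (h.summable _ (by norm_num)) h2).trans_eq hS.symm).trans hSexp).trans
      (Real.exp_le_exp.2 ?_)
    linarith
  rcases le_or_gt (-σ₁) s.re with h1 | h1
  · have hone : 1 ≤ ‖s - 1‖ := by
      have := norm_sub_norm_le s 1
      rw [norm_one, ← hR] at this
      linarith
    rw [lVal, norm_div, norm_pow]
    refine (div_le_self (norm_nonneg _) (one_le_pow₀ hone)).trans ((hstrip s h1 h2.le).trans ?_)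
    refine (mul_le_mul hCexp
      (pow_le_pow_left₀ (by positivity) (?_ : 1 + |s.im| ≤ Real.exp R) k) (by positivity)
      (Real.exp_nonneg _)).trans ?_
    · linarith [Complex.abs_im_le_norm s, Real.add_one_le_exp R]
    · rw [← Real.exp_nat_mul, ← Real.exp_add, Real.exp_le_exp]
      have : 0 ≤ (S + 3 * |Real.log Q| + ∑ j, Bj j) * R := by positivity
      linarith
  have hre : s.re ≤ -1 := by linarith
  have hw : 2 ≤ (1 - conj s).re := by simp; linarith
  have hs1 : s - 1 ≠ 0 := fun e => by
    rw [sub_eq_zero.1 e, one_re] at hre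
    linarith
  rw [lVal, h.functional_equation s (by linarith), mul_div_cancel_left₀ _ (pow_ne_zero m hs1),
    norm_mul, norm_mul, h.norm_omega, one_mul, Complex.norm_conj, norm_mul, gammaFactor,
    gammaFactor, norm_mul, mul_inv, norm_mul, norm_inv, norm_inv,
    norm_cpow_eq_rpow_re_of_pos h.Q_pos, norm_cpow_eq_rpow_re_of_pos h.Q_pos, norm_prod, norm_prod,
    ← Finset.prod_inv_distrib]
  have hprod : (∏ j, ‖Complex.Gamma (lam j * (1 - conj s) + mu j)‖) *
      ∏ j, ‖Complex.Gamma (lam j * s + mu j)‖⁻¹ ≤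
      Real.exp (degree lam * max (-s.re) 0 * Real.log R + (∑ j, Bj j) * R) := by
    rw [← Finset.prod_mul_distrib, max_eq_left (by linarith : (0 : ℝ) ≤ -s.re),
      show degree lam * -s.re * Real.log R + (∑ j, Bj j) * R =
        ∑ j, (2 * lam j * -s.re * Real.log R + Bj j * R) by
      rw [Finset.sum_add_distrib, degree]
      simp only [Finset.mul_sum, Finset.sum_mul], Real.exp_sum]
    refine Finset.prod_le_prod (fun j _ => by positivity) fun j _ => ?_
    rw [← norm_inv, hR]
    refine hfac j s hre ?_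
    have h1l : 1 / lam j ≤ ∑ i, 1 / lam i := Finset.single_le_sum
      (f := fun i => 1 / lam i) (fun i _ => (one_div_pos.2 (h.lam_pos i)).le) (Finset.mem_univ j)
    have h2l : 1 / lam j ≤ 1 - s.re := by linarith
    rw [div_le_iff₀ (h.lam_pos j)] at h2l
    linarith
  have hQ : Q ^ (1 - conj s).re * (Q ^ s.re)⁻¹ ≤ Real.exp (3 * |Real.log Q| * R) := by
    rw [← Real.rpow_neg h.Q_pos.le, ← Real.rpow_add h.Q_pos, Real.rpow_def_of_pos h.Q_pos,
      Real.exp_le_exp]
    have hσ : -s.re ≤ R := hR ▸ (neg_le_abs _).trans (Complex.abs_re_le_norm s)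
    have he : (1 - conj s).re + -s.re = 1 + 2 * -s.re := by simp; ring
    rw [he]
    refine (mul_le_mul_of_nonneg_right (le_abs_self _) (by linarith)).trans ?_
    nlinarith
  have hL : ‖LSeries a (1 - conj s)‖ ≤ Real.exp (S * R) :=
    ((norm_lSeries_le (h.summable _ (by norm_num)) hw).trans_eq hS.symm).trans hSexp
  refine (le_of_eq (by ring)).trans ((mul_le_mul (mul_le_mul hQ hprod (mul_nonneg
    (Finset.prod_nonneg fun j _ => norm_nonneg _) (Finset.prod_nonneg fun j _ => by positivity))
    (Real.exp_nonneg _)) hL (norm_nonneg _) (by positivity)).trans ?_)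
  rw [← Real.exp_add, ← Real.exp_add, Real.exp_le_exp]
  have : 0 ≤ (C + k) * R := by positivity
  linarith

/-- A proximity function from a pointwise bound. -/
theorem proximity_le_of_bound {f : ℂ → ℂ} (hf : Meromorphic f) {d B R : ℝ} (hR : 0 ≤ R)
    (hb : ∀ s : ℂ, ‖s‖ = R → Real.posLog ‖f s‖ ≤ d * max (-s.re) 0 * Real.log ‖s‖ + B * ‖s‖) :
    proximity f ⊤ R ≤ d / π * (R * Real.log R) + B * R := by
  rw [proximity_top]
  have hc : Continuous fun z : ℂ => max (-z.re) 0 := by fun_prop
  have hb' : CircleIntegrable (fun z : ℂ => d * Real.log R * max (-z.re) 0 + B * R) 0 R :=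
    (show Continuous fun z : ℂ => d * Real.log R * max (-z.re) 0 + B * R by
      fun_prop).continuousOn.circleIntegrable hR
  refine (Real.circleAverage_mono hf.meromorphicOn.circleIntegrable_posLog_norm hb'
    fun z hz => ?_).trans (le_of_eq ?_)
  · rw [abs_of_nonneg hR, mem_sphere, dist_zero_right] at hz
    refine (hb z hz).trans (le_of_eq ?_)
    rw [hz]
    ring
  · have h1 : CircleIntegrable (fun z : ℂ => (d * Real.log R) • max (-z.re) 0) 0 R :=
      (hc.const_smul (d * Real.log R)).continuousOn.circleIntegrable hR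
    rw [show (fun z : ℂ => d * Real.log R * max (-z.re) 0 + B * R) =
      fun z : ℂ => (d * Real.log R) • max (-z.re) 0 + B * R by simp [smul_eq_mul],
      Real.circleAverage_fun_add h1 (circleIntegrable_const _ _ _), Real.circleAverage_fun_smul,
      circleAverage_negRe hR, Real.circleAverage_const, smul_eq_mul]
    ring

theorem meromorphic_lVal (h : HasFunctionalEquation a m E lam mu Q omega) :
    Meromorphic (lVal E m) := fun z =>
  (h.differentiable.analyticAt z).meromorphicAt.div
    (((analyticAt_id.sub analyticAt_const).pow m).meromorphicAt)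

theorem analyticAt_lVal (h : HasFunctionalEquation a m E lam mu Q omega) {z : ℂ} (hz : z ≠ 1) :
    AnalyticAt ℂ (lVal E m) z :=
  (h.differentiable.analyticAt z).div ((analyticAt_id.sub analyticAt_const).pow m)
    (pow_ne_zero m (sub_ne_zero.2 hz))

theorem order_lVal_ne_top (h : HasFunctionalEquation a m E lam mu Q omega)
    (he : HasEulerProduct a) (z : ℂ) : meromorphicOrderAt (lVal E m) z ≠ ⊤ := by
  have h2 : meromorphicOrderAt (lVal E m) 2 ≠ ⊤ := by
    rw [(analyticAt_lVal h (by norm_num)).meromorphicOrderAt_eq,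
      (analyticAt_lVal h (by norm_num)).analyticOrderAt_eq_zero.2 (by
        rw [lVal_eq_series h (by norm_num)]
        exact lSeries_ne_zero he (by norm_num) (h.summable 2 (by norm_num)))]
    simp
  exact (meromorphic_lVal h).exists_meromorphicOrderAt_ne_top_iff_forall.1 ⟨2, h2⟩ z

theorem divisor_lVal_apply (h : HasFunctionalEquation a m E lam mu Q omega) {z : ℂ} (hz : z ≠ 1) :
    divisor (lVal E m) univ z = (analyticOrderNatAt E z : ℤ) := by
  rw [divisor_apply (meromorphic_lVal h).meromorphicOn (mem_univ z),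
    (analyticAt_lVal h hz).meromorphicOrderAt_eq, ← order_div_pow h hz, analyticOrderNatAt]
  show (ENat.map Nat.cast (analyticOrderAt (lVal E m) z)).untop₀ =
    ((analyticOrderAt (lVal E m) z).toNat : ℤ)
  cases analyticOrderAt (lVal E m) z <;> rfl

theorem logCounting_pole_le (h : HasFunctionalEquation a m E lam mu Q omega) {R : ℝ}
    (hR : 1 ≤ R) : ValueDistribution.logCounting (lVal E m) ⊤ R ≤ m * Real.log R := by
  classical
  rw [logCounting_top]
  refine (logCounting_le_single (n := (m : ℤ)) (e := 1)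
    (Function.locallyFinsuppWithin.le_def.2 fun z => ?_) hR (by simpa using hR)).trans_eq
    (by simp)
  rw [negPart_apply, Function.locallyFinsuppWithin.single_apply]
  rcases eq_or_ne z 1 with rfl | hz
  · have hg : MeromorphicAt (fun s : ℂ => (s - 1) ^ m) 1 := by fun_prop
    rw [if_pos rfl, FA.Nevanlinna.int_negPart_eq]
    refine max_le ?_ (Int.natCast_nonneg m)
    rw [divisor_apply (meromorphic_lVal h).meromorphicOn (mem_univ _), show lVal E m =
      E / fun s : ℂ => (s - 1) ^ m from rfl, div_eq_mul_inv,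
      meromorphicOrderAt_mul (h.differentiable.analyticAt 1).meromorphicAt hg.inv,
      meromorphicOrderAt_inv]
    have he : meromorphicOrderAt (fun s : ℂ => (s - 1) ^ m) 1 = ((m : ℤ) : WithTop ℤ) := by
      rw [meromorphicOrderAt_eq_int_iff hg]
      exact ⟨fun _ => 1, analyticAt_const, one_ne_zero, Eventually.of_forall fun s => by simp⟩
    rw [he]
    have hnn := (h.differentiable.analyticAt (1 : ℂ)).meromorphicOrderAt_nonneg
    cases hc : meromorphicOrderAt E 1 with
    | top => simp
    | coe n =>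
      rw [hc] at hnn
      have hn : 0 ≤ n := by exact_mod_cast hnn
      norm_cast
      rw [WithTop.untop₀_coe]
      linarith
  · rw [if_neg hz, divisor_lVal_apply h hz, FA.Nevanlinna.int_negPart_eq]
    simp

/-- **From above.** -/
theorem exists_characteristic_le (h : HasFunctionalEquation a m E lam mu Q omega) :
    ∃ B : ℝ, 0 ≤ B ∧ ∀ R : ℝ, 2 ≤ R →
      characteristic (lVal E m) ⊤ R ≤ degree lam / π * (R * Real.log R) + B * R := by
  obtain ⟨B, hB, hb⟩ := exists_posLog_le h
  refine ⟨B + m, by positivity, fun R hR => ?_⟩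
  have h1 := proximity_le_of_bound (meromorphic_lVal h) (show 0 ≤ R by linarith)
    fun s hs => hb s (hs ▸ hR)
  have h2 := logCounting_pole_le h (R := R) (by linarith)
  have h3 : (m : ℝ) * Real.log R ≤ m * R := mul_le_mul_of_nonneg_left
    ((Real.log_le_sub_one_of_pos (by linarith)).trans (by linarith)) (Nat.cast_nonneg m)
  rw [characteristic, Pi.add_apply]
  linarith

/-- **The zeros alone give the main term.** -/
theorem exists_logCounting_zero_ge (h : HasFunctionalEquation a m E lam mu Q omega)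
    (he : HasEulerProduct a) : ∃ B : ℝ, 0 ≤ B ∧ ∀ R : ℝ, 2 ≤ R →
      degree lam / π * (R * Real.log R) - B * R ≤
        ValueDistribution.logCounting (lVal E m) 0 R := by
  obtain ⟨C, hC⟩ := exists_stripCount h he
  obtain ⟨e, he'⟩ : ∃ e, e = degree lam / π := ⟨_, rfl⟩
  have hd : 0 ≤ e := he' ▸ div_nonneg (degree_nonneg h) Real.pi_pos.le
  obtain ⟨C', hC'⟩ : ∃ C', C' = |C| + |FA.SelbergStructure.rateD lam Q| / π + 3 * e := ⟨_, rfl⟩
  have hC0 : 0 ≤ C' := hC' ▸ by positivity
  refine ⟨C' + 5 * e, by positivity, fun R hR => ?_⟩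
  rw [← he', logCounting_zero]
  obtain ⟨K, hK⟩ : ∃ K, K = ⌊R⌋₊ := ⟨_, rfl⟩
  have hK2 : 2 ≤ K := hK ▸ Nat.le_floor (by exact_mod_cast hR)
  have hKR : (K : ℝ) ≤ R := hK ▸ Nat.floor_le (by linarith)
  have hRK : R < K + 1 := hK ▸ Nat.lt_floor_add_one R
  have hpos : ∀ z : ℂ, z ≠ 1 →
      ((divisor (lVal E m) univ)⁺ z : ℝ) = analyticOrderNatAt E z := fun z hz => by
    rw [posPart_apply, divisor_lVal_apply h hz, posPart_of_nonneg (Int.natCast_nonneg _)]
    simp
  have hsum := sum_le_logCounting (D := (divisor (lVal E m) univ)⁺) (posPart_nonneg _)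
    (n := fun k : ℕ => ((k : ℝ) + 1) * (e * Real.log k - C')) (K := K) fun k hk => ?_
  · rw [max_eq_left (by exact_mod_cast (show 1 ≤ K by omega))] at hsum
    have hmono : _ ≤ Function.locallyFinsuppWithin.logCounting
        (divisor (lVal E m) univ)⁺ R :=
      Function.locallyFinsuppWithin.logCounting_mono (posPart_nonneg _)
        (show (0 : ℝ) < K by exact_mod_cast (show 0 < K by omega)) (show (0 : ℝ) < R by linarith)
        hKR
    refine le_trans ?_ (hsum.trans hmono)
    rw [Finset.sum_congr rfl (g := fun k : ℕ => e * Real.log k - C') fun k _ =>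
      mul_div_cancel_left₀ _ (show (k : ℝ) + 1 ≠ 0 by positivity), Finset.sum_sub_distrib,
      ← Finset.mul_sum,
      Finset.sum_const, Nat.card_Ico, nsmul_eq_mul]
    obtain ⟨n, hn⟩ : ∃ n, K = n + 1 := ⟨K - 1, by omega⟩
    have hlog := mul_le_mul_of_nonneg_left (sum_log_ge n) hd
    have hnK : (K : ℝ) = n + 1 := by exact_mod_cast hn
    have hx := mul_le_mul_of_nonneg_left
      (xlogx_le_of_near (x := R) (n := n) (by omega) (by linarith) (by linarith)) hd
    rw [hn]
    simp only [Nat.add_sub_cancel]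
    have h1 : C' * n ≤ C' * R := mul_le_mul_of_nonneg_left (by linarith) hC0
    have h2 : e * n ≤ e * R := mul_le_mul_of_nonneg_left (by linarith) hd
    have h3 : e * 2 ≤ e * R := mul_le_mul_of_nonneg_left hR hd
    linarith
  · rw [Finset.mem_Ico] at hk
    rcases lt_or_ge k 3 with hk3 | hk3
    · refine ⟨∅, fun a ha => absurd ha (Finset.notMem_empty a), ?_⟩
      rw [Finset.sum_empty]
      refine mul_nonpos_of_nonneg_of_nonpos (by positivity) ?_
      have hk2 : (k : ℝ) ≤ 2 := by exact_mod_cast (show k ≤ 2 by omega)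
      have : Real.log k ≤ 3 := (Real.log_le_sub_one_of_pos
        (by exact_mod_cast (show 0 < k by omega))).trans (by linarith)
      have h1 := mul_le_mul_of_nonneg_left this hd
      have h2 : 0 ≤ |C| + |FA.SelbergStructure.rateD lam Q| / π := by positivity
      rw [hC']
      linarith
    · refine ⟨(finite_stripZeros h he ((k : ℝ) - 1)).toFinset, fun ρ hρ => ?_, ?_⟩
      · obtain ⟨-, h0, h1, h2, -⟩ := (Set.Finite.mem_toFinset _).1 hρ
        refine (Complex.norm_le_abs_re_add_abs_im ρ).trans ?_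
        rw [abs_of_nonneg h0]
        linarith
      · rw [Finset.sum_congr rfl fun ρ hρ => hpos ρ ((Set.Finite.mem_toFinset _).1 hρ).2.2.2.2,
          ← Nat.cast_sum, ← stripCount_eq_sum h he]
        have hk' : (3 : ℝ) ≤ k := by exact_mod_cast hk3
        obtain ⟨j, hj⟩ : ∃ j : ℝ, j = (k : ℝ) - 1 := ⟨_, rfl⟩
        rw [← hj]
        have h1 := (abs_le.1 (hC j (by linarith))).1
        have hlj : Real.log j ≤ j := (Real.log_le_sub_one_of_pos (by linarith)).trans (by linarith)
        have hj0 : 0 ≤ Real.log j := Real.log_nonneg (by linarith)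
        have h2 : C * Real.log j ≤ |C| * j := mul_le_mul (le_abs_self C) hlj hj0 (abs_nonneg C)
        have h3 : -(|FA.SelbergStructure.rateD lam Q| / π * j) ≤
            FA.SelbergStructure.rateD lam Q / π * j := by
          rw [← neg_mul, ← neg_div]
          exact mul_le_mul_of_nonneg_right
            (div_le_div_of_nonneg_right (neg_abs_le _) Real.pi_pos.le) (by linarith)
        have hm : mainTerm lam Q j =
            e * (j * Real.log j) + FA.SelbergStructure.rateD lam Q / π * j := by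
          rw [mainTerm, he']
          ring
        have hlk : Real.log k ≤ Real.log j + 1 := by
          have := Real.log_le_sub_one_of_pos (x := (k : ℝ) / j)
            (div_pos (by linarith) (by linarith))
          rw [Real.log_div (by linarith) (by linarith)] at this
          have h4 : (k : ℝ) / j ≤ 2 := by rw [div_le_iff₀ (by linarith)]; linarith
          linarith
        have hkl : Real.log k ≤ j := (Real.log_le_sub_one_of_pos (by linarith)).trans_eq hj.symm
        have h5 := mul_le_mul_of_nonneg_left hlk (mul_nonneg hd (show 0 ≤ j by linarith))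
        have h6 := mul_le_mul_of_nonneg_left hkl (show 0 ≤ e * 2 by positivity)
        have h7 : |C| * j + |FA.SelbergStructure.rateD lam Q| / π * j + 3 * e * j ≤
            ((k : ℝ) + 1) * C' := by
          rw [← add_mul, ← add_mul, ← hC', mul_comm]
          exact mul_le_mul_of_nonneg_right (by linarith) hC0
        rw [show (k : ℝ) + 1 = j + 2 by linarith] at h7 ⊢
        linarith

/-- **The characteristic and the counting function of the zeros.** -/
theorem exists_characteristic (h : HasFunctionalEquation a m E lam mu Q omega)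
    (he : HasEulerProduct a) : ∃ B : ℝ, 0 ≤ B ∧ ∀ R : ℝ, 2 ≤ R →
      |characteristic (lVal E m) ⊤ R - degree lam / π * (R * Real.log R)| ≤ B * R ∧
      |ValueDistribution.logCounting (lVal E m) 0 R - degree lam / π * (R * Real.log R)| ≤ B * R ∧
      proximity (lVal E m) 0 R ≤ B * R := by
  obtain ⟨B, hB, hup⟩ := exists_characteristic_le h
  obtain ⟨B', hB', hlow⟩ := exists_logCounting_zero_ge h he
  obtain ⟨K, hK⟩ : ∃ K, K = FA.Nevanlinna.invConst (lVal E m) := ⟨_, rfl⟩
  have hK0 : 0 ≤ K := hK ▸ FA.Nevanlinna.invConst_nonneg _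
  refine ⟨B + B' + K, by positivity, fun R hR => ?_⟩
  have h1 := hup R hR
  have h2 := hlow R hR
  have h3 := FA.Nevanlinna.characteristic_zero_le (meromorphic_lVal h) R
  rw [← hK] at h3
  have h4 : 0 ≤ proximity (lVal E m) 0 R := proximity_nonneg R
  have hKR : K ≤ K * R := le_mul_of_one_le_right hK0 (by linarith)
  have h5 : 0 ≤ B * R := by positivity
  have h6 : 0 ≤ B' * R := by positivity
  refine ⟨abs_le.2 ⟨?_, ?_⟩, abs_le.2 ⟨?_, ?_⟩, ?_⟩ <;> linarith

end FA.SelbergValues

end
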