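import Fermat.Agent.SelbergMultiplicity.Main

/-!
# Two Dirichlet series whose ratio is `H exp (α s) (s - 1) ^ k`

If `∑ u n n^(-s)` is `H e^(α s) (s - 1) ^ k` times `∑ v n n^(-s)` then `k = 0` and the two
coefficient sequences differ by a factor and a rational dilation; if both come from multiplicative
sequences of the Selberg class the dilation is trivial.
-/

set_option autoImplicit false

noncomputable section

open Complex Filter Topology Set
open scoped Real
open FA.SelbergStructure (HasDegree IsTrivial fe_trivial eq_zero_of_tendsto_log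
  eq_zero_of_tendsto_phase)

namespace FA.SelbergValues

/-- The coefficients of `L - c`. -/
def subCoeff (a : ℕ → ℂ) (c : ℂ) (n : ℕ) : ℂ :=
  if n = 0 then 0 else if n = 1 then a 1 - c else a n

/-- `u` moved to the multiples of `N`. -/
def shiftUp (N : ℕ) (u : ℕ → ℂ) (j : ℕ) : ℂ := if N ∣ j then u (j / N) else 0

theorem hasSum_subCoeff {a : ℕ → ℂ} (c : ℂ) {s : ℂ} (hs : LSeriesSummable a s) :
    LSeriesHasSum (subCoeff a c) s (LSeries a s - c) := by
  refine (hs.hasSum.sub (hasSum_ite_eq 1 c)).congr_fun fun n => ?_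
  rcases eq_or_ne n 1 with rfl | h1
  · simp [subCoeff]
  rcases eq_or_ne n 0 with rfl | h0
  · simp
  rw [if_neg h1, sub_zero, LSeries.term_of_ne_zero h0, LSeries.term_of_ne_zero h0, subCoeff,
    if_neg h0, if_neg h1]

theorem hasSum_shiftUp {N : ℕ} (hN : N ≠ 0) {u : ℕ → ℂ} {s l : ℂ} (h : LSeriesHasSum u s l) :
    LSeriesHasSum (shiftUp N u) s (l / (N : ℂ) ^ s) := by
  have hinj : Function.Injective fun k : ℕ => N * k := mul_right_injective₀ hN
  refine (hinj.hasSum_iff fun j hj => ?_).1 ((h.div_const ((N : ℂ) ^ s)).congr_fun fun k => ?_)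
  · rcases eq_or_ne j 0 with rfl | hj0
    · exact LSeries.term_zero _ _
    rw [LSeries.term_of_ne_zero hj0, shiftUp, if_neg fun hd => hj ⟨j / N, Nat.mul_div_cancel' hd⟩,
      zero_div]
  · rcases eq_or_ne k 0 with rfl | hk
    · simp
    simp only [Function.comp_apply]
    rw [LSeries.term_of_ne_zero (mul_ne_zero hN hk), LSeries.term_of_ne_zero hk, shiftUp,
      if_pos (dvd_mul_right N k), Nat.mul_div_cancel_left k (Nat.pos_of_ne_zero hN), Nat.cast_mul,
      natCast_mul_natCast_cpow, div_div, mul_comm ((k : ℂ) ^ s)]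

/-- The least term dominates. -/
theorem exists_leading {u : ℕ → ℂ} (h0 : u 0 = 0) (ha : LSeries.abscissaOfAbsConv u < ⊤) {n : ℕ}
    (hn : u n ≠ 0) : ∃ N : ℕ, N ≠ 0 ∧ u N ≠ 0 ∧ (∀ k, k < N → u k = 0) ∧
      Tendsto (fun x : ℝ => cexp ((Real.log N : ℝ) * x) * LSeries u x) atTop (𝓝 (u N)) := by
  classical
  have hex : ∃ k, u k ≠ 0 := ⟨n, hn⟩
  obtain ⟨N, hN, hmin⟩ : ∃ N, u N ≠ 0 ∧ ∀ k, k < N → u k = 0 :=
    ⟨Nat.find hex, Nat.find_spec hex, fun k hk => not_not.1 (Nat.find_min hex hk)⟩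
  obtain ⟨j, rfl⟩ := Nat.exists_eq_succ_of_ne_zero fun e : N = 0 => hN (e ▸ h0)
  refine ⟨j + 1, j.succ_ne_zero, hN, hmin, ?_⟩
  refine (LSeries.tendsto_cpow_mul_atTop (n := j) (fun k hk => hmin k (by omega)) ha).congr
    fun x => ?_
  congr 1
  rw [cpow_def_of_ne_zero (Nat.cast_add_one_ne_zero j), ofReal_log (Nat.cast_nonneg _)]
  push_cast
  rfl

theorem eq_zero_of_tendsto_linear_log {a b l : ℝ}
    (h : Tendsto (fun t : ℝ => a * t + b * Real.log t) atTop (𝓝 l)) : a = 0 ∧ b = 0 := by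
  have h1 : Tendsto (fun t : ℝ => a + b * (Real.log t / t)) atTop (𝓝 a) := by
    simpa using ((Real.isLittleO_log_id_atTop.tendsto_div_nhds_zero).const_mul b).const_add a
  have h2 : Tendsto (fun t : ℝ => (a * t + b * Real.log t) * t⁻¹) atTop (𝓝 0) := by
    simpa using h.mul tendsto_inv_atTop_zero
  have ha : a = 0 := tendsto_nhds_unique h1 (h2.congr' (by
    filter_upwards [eventually_gt_atTop 0] with t ht
    field_simp))
  refine ⟨ha, eq_zero_of_tendsto_log (l := l) (h.congr fun t => ?_)⟩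
  rw [ha, zero_mul, zero_add]

/-- The exponents are forced. -/
theorem exponents_eq {γ H C : ℂ} {k : ℤ} (hH : H ≠ 0) (hC : C ≠ 0)
    (h : Tendsto (fun t : ℝ => H * cexp (γ * t) * ((t : ℂ) ^ k)) atTop (𝓝 C)) :
    γ = 0 ∧ k = 0 ∧ H = C := by
  have h1 : Tendsto (fun t : ℝ => γ.re * t + (k : ℝ) * Real.log t) atTop
      (𝓝 (Real.log ‖C‖ - Real.log ‖H‖)) := by
    refine ((h.norm.log (norm_ne_zero_iff.2 hC)).sub_const (Real.log ‖H‖)).congr' ?_
    filter_upwards [eventually_gt_atTop 0] with t ht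
    rw [norm_mul, norm_mul, Complex.norm_exp, norm_zpow, Complex.norm_real,
      Real.norm_of_nonneg ht.le, Real.log_mul (mul_ne_zero (norm_ne_zero_iff.2 hH)
        (Real.exp_pos _).ne') (zpow_ne_zero k ht.ne'),
      Real.log_mul (norm_ne_zero_iff.2 hH) (Real.exp_pos _).ne', Real.log_exp, Real.log_zpow,
      mul_re, ofReal_re, ofReal_im]
    ring
  obtain ⟨hre, hk⟩ := eq_zero_of_tendsto_linear_log h1
  have hk' : k = 0 := by exact_mod_cast hk
  subst hk'
  have hph : Tendsto (fun t : ℝ => cexp (((γ.im * t + 0 * Real.log t : ℝ) : ℂ) * I)) atTop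
      (𝓝 (C / H)) := by
    refine (h.div_const H).congr fun t => ?_
    rw [zpow_zero, mul_one, mul_div_assoc, mul_div_cancel₀ _ hH]
    congr 1
    apply Complex.ext <;> simp [hre]
  obtain ⟨him, -⟩ := eq_zero_of_tendsto_phase (div_ne_zero hC hH) hph
  have hγ : γ = 0 := Complex.ext hre him
  refine ⟨hγ, rfl, ?_⟩
  simp only [hγ, zero_mul, Complex.exp_zero, mul_one, zpow_zero] at h
  exact tendsto_nhds_unique tendsto_const_nhds h

/-- **The coefficients of two series with such a ratio.** -/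
theorem exists_dilation {u v : ℕ → ℂ} (hu0 : u 0 = 0) (hv0 : v 0 = 0)
    (hu : ∀ x : ℝ, 1 < x → LSeriesSummable u x) (hv : ∀ x : ℝ, 1 < x → LSeriesSummable v x)
    (hun : ∃ n, u n ≠ 0) (hvn : ∃ n, v n ≠ 0) {H α : ℂ} {k : ℤ} (hH : H ≠ 0)
    (h : ∀ x : ℝ, 1 < x →
      LSeries u x = ((x : ℂ) - 1) ^ k * (H * cexp (α * x)) * LSeries v x) :
    ∃ N M : ℕ, N ≠ 0 ∧ M ≠ 0 ∧ u N ≠ 0 ∧ v M ≠ 0 ∧ (∀ j, j < N → u j = 0) ∧
      (∀ j, j < M → v j = 0) ∧ ∀ j, shiftUp M u j = u N / v M * shiftUp N v j := by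
  have hau : LSeries.abscissaOfAbsConv u < ⊤ :=
    (hu 2 one_lt_two).abscissaOfAbsConv_le.trans_lt (EReal.coe_lt_top _)
  have hav : LSeries.abscissaOfAbsConv v < ⊤ :=
    (hv 2 one_lt_two).abscissaOfAbsConv_le.trans_lt (EReal.coe_lt_top _)
  obtain ⟨n, hn⟩ := hun
  obtain ⟨n', hn'⟩ := hvn
  obtain ⟨N, hN, huN, huj, hlu⟩ := exists_leading hu0 hau hn
  obtain ⟨M, hM, hvM, hvj, hlv⟩ := exists_leading hv0 hav hn'
  obtain ⟨γ, hγ⟩ : ∃ γ : ℂ, γ = α + (Real.log N : ℝ) - (Real.log M : ℝ) := ⟨_, rfl⟩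
  have hlim : Tendsto (fun t : ℝ => H * cexp γ * cexp (γ * t) * ((t : ℂ) ^ k)) atTop
      (𝓝 (u N / v M)) := by
    have h1 := (hlu.div hlv hvM).comp (tendsto_atTop_add_const_right atTop (1 : ℝ) tendsto_id)
    refine h1.congr' ?_
    filter_upwards [eventually_gt_atTop 0, ((hlv.comp (tendsto_atTop_add_const_right atTop (1 : ℝ)
      tendsto_id)).eventually_ne hvM)] with t ht hne
    simp only [Function.comp_apply, Pi.div_apply, id_eq] at hne ⊢
    rw [h (t + 1) (by linarith), show ((t + 1 : ℝ) : ℂ) - 1 = (t : ℂ) by push_cast; ring,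
      div_eq_iff hne, show α * ((t + 1 : ℝ) : ℂ) = γ + γ * t - (Real.log N : ℝ) * ((t + 1 : ℝ) : ℂ)
        + (Real.log M : ℝ) * ((t + 1 : ℝ) : ℂ) by rw [hγ]; push_cast; ring,
      Complex.exp_add (γ + γ * (t : ℂ) - _), Complex.exp_sub, Complex.exp_add]
    field_simp
  obtain ⟨hγ0, hk, hHC⟩ :=
    exponents_eq (mul_ne_zero hH (Complex.exp_ne_zero _)) (div_ne_zero huN hvM) hlim
  rw [hγ0, Complex.exp_zero, mul_one] at hHC
  refine ⟨N, M, hN, hM, huN, hvM, huj, hvj, fun j => ?_⟩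
  rcases eq_or_ne j 0 with rfl | hj
  · simp [hu0, shiftUp, hv0]
  have hsh : ∀ x : ℝ, 1 < x → LSeriesHasSum (shiftUp M u) x (LSeries u x / (M : ℂ) ^ (x : ℂ)) ∧
      LSeriesHasSum ((u N / v M) • shiftUp N v) x
        ((u N / v M) * (LSeries v x / (N : ℂ) ^ (x : ℂ))) := fun x hx =>
    ⟨hasSum_shiftUp hM (hu x hx).LSeriesHasSum,
      (hasSum_shiftUp hN (hv x hx).LSeriesHasSum).smul (u N / v M)⟩
  have hαx : α = (Real.log M : ℝ) - (Real.log N : ℝ) := by linear_combination hγ0 - hγ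
  have key := LSeries.eq_of_LSeries_eventually_eq (n := j)
    ((hsh 2 one_lt_two).1.LSeriesSummable.abscissaOfAbsConv_le.trans_lt (EReal.coe_lt_top _))
    ((hsh 2 one_lt_two).2.LSeriesSummable.abscissaOfAbsConv_le.trans_lt (EReal.coe_lt_top _))
    (by
      filter_upwards [eventually_gt_atTop 1] with x hx
      rw [(hsh x hx).1.LSeries_eq, (hsh x hx).2.LSeries_eq, h x hx, hk, zpow_zero, one_mul,
        hHC, hαx, sub_mul, Complex.exp_sub, cpow_def_of_ne_zero (Nat.cast_ne_zero.2 hM),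
        cpow_def_of_ne_zero (Nat.cast_ne_zero.2 hN), Complex.natCast_log, Complex.natCast_log]
      field_simp) hj
  rwa [Pi.smul_apply, smul_eq_mul] at key

theorem hasDegree_delta : HasDegree (fun n => if n = 1 then 1 else 0) 0 := by
  refine ⟨⟨if_pos rfl, fun m n _ => ?_, 0, by norm_num, fun p hp X _ => ⟨1, one_ne_zero, ?_⟩⟩,
    _, _, _, _, _, _, _, fe_trivial (a := fun n => if n = 1 then 1 else 0) (if_pos rfl)
      (fun n hn => if_neg (by omega)), by simp [FA.DegreeGap.degree]⟩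
  · rcases eq_or_ne m 1 with rfl | hm
    · simp
    rcases eq_or_ne n 1 with rfl | hn
    · simp
    rw [if_neg (fun h => hm (Nat.eq_one_of_mul_eq_one_right h)), if_neg hm, zero_mul]
  · have h1 := hasSum_single (f := fun k => (if p ^ k = 1 then (1 : ℂ) else 0) * X ^ k) 0
      fun k hk => by
        rw [if_neg (fun e => hp.one_lt.ne' ((pow_eq_one_iff.1 e).resolve_right hk)), zero_mul]
    simpa using h1

/-- A nontrivial element has prime powers of two primes in its support. -/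
theorem exists_support_outside {a : ℕ → ℂ} {d : ℝ} (ha : HasDegree a d) (ht : ¬ IsTrivial a)
    (p : ℕ) : ∃ q : ℕ, q.Prime ∧ q ≠ p ∧ ∃ e, a (q ^ (e + 1)) ≠ 0 := by
  by_contra hno
  push Not at hno
  refine ht fun n hn => ?_
  have h := FA.SelbergMultiplicity.eq_of_eq_outside ha hasDegree_delta {p} (fun q hq hqp k => ?_)
    (show n ≠ 0 by omega)
  · simpa [show n ≠ 1 by omega] using h
  · rcases k with _ | e
    · simp [ha.map_one]
    · rw [hno q hq (by simpa using hqp) e, if_neg]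
      exact fun h1 => hq.one_lt.ne' ((pow_eq_one_iff.1 h1).resolve_right e.succ_ne_zero)

/-- If the coefficients are supported on `1` and the multiples of `K`, then `K = 1`. -/
theorem eq_one_of_support {a : ℕ → ℂ} {d : ℝ} (ha : HasDegree a d) (ht : ¬ IsTrivial a) {K : ℕ}
    (hK : ∀ j, 1 < j → a j ≠ 0 → K ∣ j) : K = 1 := by
  by_contra hne
  obtain ⟨p, hp, hpK⟩ := Nat.exists_prime_and_dvd hne
  obtain ⟨q, hq, hqp, e, he⟩ := exists_support_outside ha ht p
  exact hqp ((Nat.prime_dvd_prime_iff_eq hp hq).1 (hp.dvd_of_dvd_pow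
    (hpK.trans (hK _ (Nat.one_lt_pow e.succ_ne_zero hq.one_lt) he)))).symm

theorem div_gcd_dvd {N M j : ℕ} (hN : N ≠ 0) (h : N ∣ M * j) : N / Nat.gcd N M ∣ j := by
  obtain ⟨g, hg⟩ : ∃ g, g = Nat.gcd N M := ⟨_, rfl⟩
  have hg0 : 0 < g := hg ▸ Nat.gcd_pos_of_pos_left _ (Nat.pos_of_ne_zero hN)
  rw [← hg]
  have hco : Nat.Coprime (N / g) (M / g) := hg ▸ Nat.coprime_div_gcd_div_gcd (hg ▸ hg0)
  refine hco.dvd_of_dvd_mul_left ?_
  refine Nat.dvd_of_mul_dvd_mul_left hg0 ?_
  rw [← mul_assoc, Nat.mul_div_cancel' (hg ▸ Nat.gcd_dvd_left N M),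
    Nat.mul_div_cancel' (hg ▸ Nat.gcd_dvd_right N M)]
  exact h

theorem hasSum_sub {a : ℕ → ℂ} {d : ℝ} (ha : HasDegree a d) (c : ℂ) {x : ℝ} (hx : 1 < x) :
    LSeriesHasSum (subCoeff a c) x (LSeries a x - c) :=
  hasSum_subCoeff c (ha.summable (by simpa using hx))

theorem subCoeff_of_one_lt {a : ℕ → ℂ} {c : ℂ} {j : ℕ} (hj : 1 < j) : subCoeff a c j = a j := by
  rw [subCoeff, if_neg (by omega), if_neg (by omega)]

/-- **The ratio of `L - c` and `L' - c` is `1`.** -/
theorem coeff_eq_of_ratio {a b : ℕ → ℂ} {d e : ℝ} (ha : HasDegree a d) (hb : HasDegree b e)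
    {c : ℂ} (hat : c = 1 → ¬ IsTrivial a) (hbt : c = 1 → ¬ IsTrivial b) {H α : ℂ} {k : ℤ}
    (hH : H ≠ 0) (h : ∀ x : ℝ, 1 < x →
      LSeries a x - c = ((x : ℂ) - 1) ^ k * (H * cexp (α * x)) * (LSeries b x - c))
    {n : ℕ} (hn : n ≠ 0) : a n = b n := by
  have hne : ∀ {f : ℕ → ℂ} {g : ℝ}, HasDegree f g → (c = 1 → ¬ IsTrivial f) →
      ∃ n, subCoeff f c n ≠ 0 := fun {f g} hf hft => by
    rcases eq_or_ne c 1 with hc | hc
    · obtain ⟨n, hn⟩ := not_forall.1 (hft hc)
      rw [Classical.not_imp] at hn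
      exact ⟨n, by rw [subCoeff_of_one_lt hn.1]; exact hn.2⟩
    · exact ⟨1, by simp [subCoeff, hf.map_one, sub_eq_zero, Ne.symm hc]⟩
  obtain ⟨N, M, hN, hM, huN, hvM, huj, hvj, hrel⟩ :=
    exists_dilation (u := subCoeff a c) (v := subCoeff b c) rfl rfl
      (fun x hx => (hasSum_sub ha c hx).LSeriesSummable)
      (fun x hx => (hasSum_sub hb c hx).LSeriesSummable) (hne ha hat) (hne hb hbt) hH
      fun x hx => by
        rw [(hasSum_sub ha c hx).LSeries_eq, (hasSum_sub hb c hx).LSeries_eq]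
        exact h x hx
  obtain ⟨C, hC⟩ : ∃ C, C = subCoeff a c N / subCoeff b c M := ⟨_, rfl⟩
  have hC0 : C ≠ 0 := hC ▸ div_ne_zero huN hvM
  simp only [← hC] at hrel
  rcases Nat.lt_or_ge 1 n with hn1 | hn1
  swap
  · rw [show n = 1 by omega, ha.map_one, hb.map_one]
  rcases eq_or_ne c 1 with hc | hc
  · have hz : ∀ {f : ℕ → ℂ} {g : ℝ} {J : ℕ}, HasDegree f g → subCoeff f c J ≠ 0 → 1 < J :=
      fun {f g J} hf hJ => by
        by_contra hle
        interval_cases J
        · exact hJ rfl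
        · exact hJ (by simp [subCoeff, hf.map_one, hc])
    have hNM : N ∣ M := by
      have h1 : N / Nat.gcd N M = 1 := eq_one_of_support ha (hat hc) fun j hj hne => by
        refine div_gcd_dvd hN ?_
        by_contra hno
        have := hrel (M * j)
        rw [shiftUp, if_pos (dvd_mul_right M j), Nat.mul_div_cancel_left _ (by omega), shiftUp,
          if_neg hno, mul_zero, subCoeff_of_one_lt hj] at this
        exact hne this
      rw [← Nat.div_mul_cancel (Nat.gcd_dvd_left N M), h1, one_mul]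
      exact Nat.gcd_dvd_right N M
    have hMN : M ∣ N := by
      have h1 : M / Nat.gcd M N = 1 := eq_one_of_support hb (hbt hc) fun j hj hne => by
        refine div_gcd_dvd hM ?_
        by_contra hno
        have := hrel (N * j)
        rw [shiftUp, if_neg hno, shiftUp, if_pos (dvd_mul_right N j),
          Nat.mul_div_cancel_left _ (by omega), subCoeff_of_one_lt hj] at this
        exact mul_ne_zero hC0 hne this.symm
      rw [← Nat.div_mul_cancel (Nat.gcd_dvd_left M N), h1, one_mul]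
      exact Nat.gcd_dvd_right M N
    have hEq : N = M := Nat.dvd_antisymm hNM hMN
    have hab : ∀ j, 1 < j → a j = C * b j := fun j hj => by
      have := hrel (M * j)
      rw [hEq, shiftUp, if_pos (dvd_mul_right M j), shiftUp, if_pos (dvd_mul_right M j),
        Nat.mul_div_cancel_left _ (by omega), subCoeff_of_one_lt hj, subCoeff_of_one_lt hj] at this
      exact this
    obtain ⟨q, hq, -, i, hi⟩ := exists_support_outside ha (hat hc) 0
    obtain ⟨q', hq', hqq, i', hi'⟩ := exists_support_outside ha (hat hc) q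
    have hx : 1 < q ^ (i + 1) := Nat.one_lt_pow i.succ_ne_zero hq.one_lt
    have hy : 1 < q' ^ (i' + 1) := Nat.one_lt_pow i'.succ_ne_zero hq'.one_lt
    have hco : Nat.Coprime (q ^ (i + 1)) (q' ^ (i' + 1)) :=
      Nat.Coprime.pow _ _ ((Nat.coprime_primes hq hq').2 (Ne.symm hqq))
    have hxy := hab _ (one_lt_mul_of_lt_of_le hx hy.le)
    rw [ha.1.map_mul _ _ hco, hb.1.map_mul _ _ hco, hab _ hx, hab _ hy] at hxy
    have hb0 : b (q ^ (i + 1)) * b (q' ^ (i' + 1)) ≠ 0 :=
      mul_ne_zero (right_ne_zero_of_mul (hab _ hx ▸ hi)) (right_ne_zero_of_mul (hab _ hy ▸ hi'))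
    have hC1 : C = 1 := by
      refine mul_right_cancel₀ hb0 (mul_left_cancel₀ hC0 ?_)
      linear_combination hxy
    rw [hab n hn1, hC1, one_mul]
  · have hone : ∀ {f : ℕ → ℂ} {g : ℝ} {J : ℕ}, HasDegree f g → J ≠ 0 →
        (∀ j, j < J → subCoeff f c j = 0) → J = 1 := fun {f g J} hf hJ hj => by
      by_contra hne1
      have := hj 1 (by omega)
      simp [subCoeff, hf.map_one, sub_eq_zero] at this
      exact hc this.symm
    obtain rfl := hone ha hN huj
    obtain rfl := hone hb hM hvj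
    have hC1 : C = 1 := by
      rw [hC, subCoeff, subCoeff]
      simp [ha.map_one, hb.map_one, sub_ne_zero.2 (Ne.symm hc)]
    have := hrel n
    simpa [shiftUp, hC1, subCoeff_of_one_lt hn1] using this

end FA.SelbergValues

end
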