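import Fermat.Agent.Nevanlinna.Applications
import Fermat.Agent.SelbergValues.Growth
import Fermat.Agent.SelbergValues.Factor
import Fermat.Agent.SelbergValues.Right

/-!
# Value distribution and uniqueness in the Selberg class (Steuding)
-/

set_option autoImplicit false

noncomputable section

open Complex Filter Topology Set Metric MeromorphicOn
open ValueDistribution
open scoped Real
open FA.DegreeGap (HasFunctionalEquation degree degree_nonneg)
open FA.SelbergClass (HasEulerProduct)
open FA.SelbergStructure (HasDegree IsTrivial eq_one_of_trivial)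
open FA.SelbergLindelof (lVal lVal_eq_series)
open FA.Nevanlinna (Nonconst reducedCounting reduceOnce valueDivisor AttainsAt)

namespace FA.SelbergValues

variable {a b : ℕ → ℂ} {m m' : ℕ} {E E' : ℂ → ℂ} {r r' : ℕ} {lam : Fin r → ℝ} {mu : Fin r → ℂ}
  {Q : ℝ} {omega : ℂ} {lam' : Fin r' → ℝ} {mu' : Fin r' → ℂ} {Q' : ℝ} {omega' : ℂ}

theorem hasDegree_of (h : HasFunctionalEquation a m E lam mu Q omega) (he : HasEulerProduct a) :
    HasDegree a (degree lam) :=
  ⟨he, m, E, r, lam, mu, Q, omega, h, rfl⟩

theorem not_trivial_of_pos (h : HasFunctionalEquation a m E lam mu Q omega) (he : HasEulerProduct a)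
    (hd : 0 < degree lam) : ¬ IsTrivial a :=
  fun ht => hd.ne' ((hasDegree_of h he).eq_zero_iff.2 ht)

theorem abscissa_lt_top (h : HasFunctionalEquation a m E lam mu Q omega) :
    LSeries.abscissaOfAbsConv a < ⊤ :=
  (h.summable 2 (by norm_num)).abscissaOfAbsConv_le.trans_lt (EReal.coe_lt_top _)

/-- Equal series far to the right. -/
theorem coeff_eq_of_eventually (h : HasFunctionalEquation a m E lam mu Q omega)
    (h' : HasFunctionalEquation b m' E' lam' mu' Q' omega')
    (heq : ∀ x : ℝ, 1 < x → LSeries a x = LSeries b x) {n : ℕ} (hn : n ≠ 0) : a n = b n :=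
  LSeries.eq_of_LSeries_eventually_eq (abscissa_lt_top h) (abscissa_lt_top h')
    (by filter_upwards [eventually_gt_atTop 1] with x hx using heq x hx) hn

/-- Local equality with a constant forces the trivial element. -/
theorem trivial_of_order_top (h : HasFunctionalEquation a m E lam mu Q omega)
    (he : HasEulerProduct a) {c : ℂ}
    (ho : analyticOrderAt (fun z => lVal E m z - c) 2 = ⊤) : c = 1 ∧ IsTrivial a := by
  have hU : IsOpen {z : ℂ | 1 < z.re} := isOpen_lt continuous_const Complex.continuous_re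
  have han : AnalyticOnNhd ℂ (fun z => lVal E m z - c) {z : ℂ | 1 < z.re} := fun z hz =>
    (analyticAt_lVal h fun e => by rw [e] at hz; simp at hz).sub analyticAt_const
  have heq := han.eqOn_zero_of_preconnected_of_eventuallyEq_zero
    (convex_halfSpace_re_gt 1).isPreconnected (show (2 : ℂ) ∈ {z : ℂ | 1 < z.re} by norm_num)
    (analyticOrderAt_eq_top.1 ho)
  have hc : ∀ x : ℝ, 1 < x → LSeries a x = c := fun x hx => by
    have hre : 1 < (x : ℂ).re := by simpa using hx
    have h1 : lVal E m x - c = 0 := heq hre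
    rwa [lVal_eq_series h hre, sub_eq_zero] at h1
  have hlim := LSeries.tendsto_atTop (abscissa_lt_top h)
  rw [he.map_one] at hlim
  have hc1 : c = 1 := tendsto_nhds_unique (tendsto_const_nhds.congr' (by
    filter_upwards [eventually_gt_atTop 1] with x hx using (hc x hx).symm)) hlim
  refine ⟨hc1, fun n hn => ?_⟩
  obtain ⟨hd, m₀, E₀, r₀, lam₀, mu₀, Q₀, om₀, hf, -⟩ := hasDegree_delta
  have := coeff_eq_of_eventually h hf (fun x hx => by
    rw [hc x hx, hc1]
    exact (eq_one_of_trivial (a := fun j => if j = 1 then 1 else 0) (if_pos rfl)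
      (fun j hj => if_neg (by omega)) _).symm)
    (show n ≠ 0 by omega)
  rw [this, if_neg (by omega)]

theorem order_top_of_trivial (h : HasFunctionalEquation a m E lam mu Q omega)
    (he : HasEulerProduct a) (ht : IsTrivial a) :
    analyticOrderAt (fun z => lVal E m z - 1) 2 = ⊤ := by
  rw [analyticOrderAt_eq_top]
  filter_upwards [(isOpen_lt continuous_const Complex.continuous_re).mem_nhds
    (show (1 : ℝ) < (2 : ℂ).re by norm_num)] with z hz
  rw [lVal_eq_series h hz, eq_one_of_trivial he.map_one ht, sub_self]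

theorem order_sub_ne_top (h : HasFunctionalEquation a m E lam mu Q omega) (he : HasEulerProduct a)
    {c : ℂ} (hc : c = 1 → ¬ IsTrivial a) (z : ℂ) :
    meromorphicOrderAt (fun w => lVal E m w - c) z ≠ ⊤ := by
  have hm := FA.Nevanlinna.meromorphic_sub_const (meromorphic_lVal h) c
  refine hm.exists_meromorphicOrderAt_ne_top_iff_forall.1 ⟨2, fun htop => ?_⟩ z
  have han : AnalyticAt ℂ (fun w => lVal E m w - c) 2 :=
    (analyticAt_lVal h (by norm_num)).sub analyticAt_const
  rw [han.meromorphicOrderAt_eq, ENat.map_eq_top_iff] at htop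
  exact hc (trivial_of_order_top h he htop).1 (trivial_of_order_top h he htop).2

theorem nonconst_lVal (h : HasFunctionalEquation a m E lam mu Q omega) (he : HasEulerProduct a)
    (hd : 0 < degree lam) : Nonconst (lVal E m) :=
  fun _ z => order_sub_ne_top h he (fun _ => not_trivial_of_pos h he hd) z

theorem not_bounded_log {c C : ℝ} (hc : 0 < c)
    (h : ∀ᶠ R : ℝ in atTop, c * (R * Real.log R) ≤ C * R) : False := by
  obtain ⟨R, h1, h2, h3⟩ := (h.and ((eventually_gt_atTop (1 : ℝ)).and
    ((Real.tendsto_log_atTop.const_mul_atTop hc).eventually_gt_atTop C))).exists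
  nlinarith [mul_lt_mul_of_pos_right h3 (show (0 : ℝ) < R by linarith)]

/-- **Every value is taken infinitely often.** -/
theorem infinite_values (h : HasFunctionalEquation a m E lam mu Q omega) (he : HasEulerProduct a)
    (hd : 0 < degree lam) (c : ℂ) : {s : ℂ | s ≠ 1 ∧ lVal E m s = c}.Infinite := by
  intro hfin
  have hL := meromorphic_lVal h
  have hG := FA.Nevanlinna.meromorphic_sub_const hL c
  have hord := order_sub_ne_top h he (c := c) fun _ => not_trivial_of_pos h he hd
  have hsupp : (divisor (fun w => lVal E m w - c) univ).support.Finite := by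
    refine (hfin.insert 1).subset fun z hz => ?_
    by_contra hno
    simp only [mem_insert_iff, mem_ofPred_eq, not_or, not_and] at hno
    have han : AnalyticAt ℂ (fun w => lVal E m w - c) z :=
      (analyticAt_lVal h hno.1).sub analyticAt_const
    refine hz ?_
    rw [divisor_apply hG.meromorphicOn (mem_univ z), han.meromorphicOrderAt_eq,
      han.analyticOrderAt_eq_zero.2 (sub_ne_zero.2 (hno.2 hno.1))]
    rfl
  obtain ⟨B, hB, hch⟩ := exists_characteristic h he
  obtain ⟨K, hK⟩ : ∃ K, K = Real.posLog ‖c‖ + Real.log 2 := ⟨_, rfl⟩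
  have hK0 : 0 ≤ K := hK ▸ add_nonneg Real.posLog_nonneg (Real.log_nonneg one_le_two)
  obtain ⟨-, B', R₁, hpr⟩ := exists_exp_factor hG hord hsupp
    (A := degree lam / π) (B := B + K) fun R hR => by
      have h1 := (abs_le.1 (hch R hR).1).2
      have h2 := (FA.Nevanlinna.characteristic_shift_le hL c R).1
      rw [characteristic, Pi.add_apply, ← hK] at h2
      have h3 : 0 ≤ ValueDistribution.logCounting (fun w => lVal E m w - c) ⊤ R :=
        logCounting_nonneg (by linarith)
      have h4 : K ≤ K * R := le_mul_of_one_le_right hK0 (by linarith)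
      linarith
  refine not_bounded_log (c := degree lam / π) (C := B' + m + K + B)
    (div_pos hd Real.pi_pos) ?_
  filter_upwards [eventually_ge_atTop (max R₁ 2)] with R hR
  rw [max_le_iff] at hR
  have h1 := (abs_le.1 (hch R hR.2).1).1
  have h2 := (FA.Nevanlinna.characteristic_shift_le hL c R).2
  have h3 : ValueDistribution.logCounting (fun w => lVal E m w - c) ⊤ R ≤ m * R := by
    rw [show (fun w => lVal E m w - c) = lVal E m - fun _ => c from rfl, logCounting_sub_const hL]
    exact (logCounting_pole_le h (by linarith)).trans (mul_le_mul_of_nonneg_left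
      ((Real.log_le_sub_one_of_pos (by linarith)).trans (by linarith)) (Nat.cast_nonneg m))
  rw [← hK] at h2
  have h5 : characteristic (fun w => lVal E m w - c) ⊤ R =
      proximity (fun w => lVal E m w - c) ⊤ R +
        ValueDistribution.logCounting (fun w => lVal E m w - c) ⊤ R := rfl
  have h4 : K ≤ K * R := le_mul_of_one_le_right hK0 (by linarith)
  linarith [hpr R hR.1]

/-- **Two values.** -/
theorem exists_two_values (h : HasFunctionalEquation a m E lam mu Q omega) (he : HasEulerProduct a)
    (hd : 0 < degree lam) {c c' : ℂ} (hne : c ≠ c') {ε : ℝ} (hε : 0 < ε) :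
    ∃ S : Set ℝ, FA.Nevanlinna.LogFinite S ∧ ∃ R₀ : ℝ, ∀ R : ℝ, R₀ ≤ R → R ∉ S →
      (1 - ε) * (degree lam / π * (R * Real.log R)) ≤
        reducedCounting (lVal E m) c R + reducedCounting (lVal E m) c' R := by
  have hL := meromorphic_lVal h
  have hn := nonconst_lVal h he hd
  obtain ⟨B, hB, hch⟩ := exists_characteristic h he
  obtain ⟨η, hη⟩ : ∃ η, η = min ε 1 / 2 := ⟨_, rfl⟩
  have hη0 : 0 < η := hη ▸ half_pos (lt_min hε one_pos)
  have hη1 : η ≤ 1 / 2 := by linarith [min_le_right ε 1]
  obtain ⟨C, -, S, hS, h2⟩ := FA.Nevanlinna.second_main hL hn {c, c'}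
  have he0 : 0 < degree lam / π := div_pos hd Real.pi_pos
  obtain ⟨R₀, hR₀⟩ := eventually_atTop.1 ((eventually_ge_atTop (2 : ℝ)).and
    (((FA.Nevanlinna.tendsto_characteristic hL hn).eventually
      (FA.Nevanlinna.eventually_log_lt (C := C) hη0)).and
      ((Real.tendsto_log_atTop.const_mul_atTop (mul_pos hη0 he0)).eventually_ge_atTop (B + m))))
  refine ⟨S, hS, R₀, fun R hR hRS => ?_⟩
  obtain ⟨hR2, hsmall, hbig⟩ := hR₀ R hR
  have hR0 : (0 : ℝ) ≤ R := by linarith
  have h3 := h2 R (by linarith) hRS
  simp only [Finset.sum_pair hne, Finset.card_pair hne] at h3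
  push_cast at h3
  have h4 : reducedCounting (lVal E m) ⊤ R ≤ m * R :=
    (FA.Nevanlinna.reducedCounting_le _ _ (by linarith)).trans
      ((logCounting_pole_le h (by linarith)).trans (mul_le_mul_of_nonneg_left
        ((Real.log_le_sub_one_of_pos (by linarith)).trans (by linarith)) (Nat.cast_nonneg m)))
  have h5 := mul_le_mul_of_nonneg_left (abs_le.1 (hch R hR2).1).1 (show 0 ≤ 1 - η by linarith)
  have h6 := mul_le_mul_of_nonneg_right hbig hR0
  have h7 : 0 ≤ η * (B * R) := by positivity
  have h9 := mul_le_mul_of_nonneg_right (show 2 * η ≤ ε by linarith [min_le_left ε 1])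
    (show 0 ≤ degree lam / π * (R * Real.log R) from
      mul_nonneg he0.le (mul_nonneg hR0 (Real.log_nonneg (by linarith))))
  nlinarith

/-- **One value counted with multiplicity.** -/
theorem coeff_eq_of_share (h : HasFunctionalEquation a m E lam mu Q omega)
    (he : HasEulerProduct a) (h' : HasFunctionalEquation b m' E' lam' mu' Q' omega')
    (he' : HasEulerProduct b) {c : ℂ} (hshare : ∀ s : ℂ, s ≠ 1 →
      analyticOrderAt (fun z => lVal E m z - c) s = analyticOrderAt (fun z => lVal E' m' z - c) s)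
    {n : ℕ} (hn : n ≠ 0) : a n = b n := by
  have h2 : (2 : ℂ) ≠ 1 := by norm_num
  by_cases htriv : c = 1 ∧ IsTrivial a
  · have htb := (trivial_of_order_top h' he'
      (by rw [← hshare 2 h2, htriv.1]; exact order_top_of_trivial h he htriv.2)).2
    rcases Nat.lt_or_ge 1 n with h1 | h1
    · rw [htriv.2 n h1, htb n h1]
    · rw [show n = 1 by omega, he.map_one, he'.map_one]
  have hat : c = 1 → ¬ IsTrivial a := fun hc ht => htriv ⟨hc, ht⟩
  have hbt : c = 1 → ¬ IsTrivial b := fun hc ht => by
    have ho := order_top_of_trivial h' he' ht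
    rw [← hc, ← hshare 2 h2] at ho
    exact hat hc (trivial_of_order_top h he ho).2
  obtain ⟨f, hf⟩ : ∃ f : ℂ → ℂ, f = fun z => lVal E m z - c := ⟨_, rfl⟩
  obtain ⟨g, hg⟩ : ∃ g : ℂ → ℂ, g = fun z => lVal E' m' z - c := ⟨_, rfl⟩
  have hfm : Meromorphic f := hf ▸ FA.Nevanlinna.meromorphic_sub_const (meromorphic_lVal h) c
  have hgm : Meromorphic g := hg ▸ FA.Nevanlinna.meromorphic_sub_const (meromorphic_lVal h') c
  have hfo : ∀ z, meromorphicOrderAt f z ≠ ⊤ := hf ▸ order_sub_ne_top h he hat
  have hgo : ∀ z, meromorphicOrderAt g z ≠ ⊤ := hg ▸ order_sub_ne_top h' he' hbt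
  have hGm : Meromorphic (f * g⁻¹) := hfm.mul hgm.inv
  have hGord : ∀ z, meromorphicOrderAt (f * g⁻¹) z ≠ ⊤ := fun z => by
    rw [meromorphicOrderAt_mul (hfm z) (hgm z).inv, meromorphicOrderAt_inv]
    obtain ⟨p, hp⟩ := WithTop.ne_top_iff_exists.1 (hfo z)
    obtain ⟨q, hq⟩ := WithTop.ne_top_iff_exists.1 (hgo z)
    rw [← hp, ← hq]
    exact WithTop.coe_ne_top (a := p + -q)
  have hsub : (divisor (f * g⁻¹) univ).support ⊆ {1} := fun z hz => by
    by_contra hz1
    have hz1' : z ≠ 1 := hz1
    refine hz ?_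
    have e : meromorphicOrderAt f z = meromorphicOrderAt g z := by
      have han : AnalyticAt ℂ (fun w => lVal E m w - c) z :=
        (analyticAt_lVal h hz1').sub analyticAt_const
      have han' : AnalyticAt ℂ (fun w => lVal E' m' w - c) z :=
        (analyticAt_lVal h' hz1').sub analyticAt_const
      rw [hf, hg, han.meromorphicOrderAt_eq, han'.meromorphicOrderAt_eq]
      exact congrArg _ (hshare z hz1')
    rw [divisor_apply hGm.meromorphicOn (mem_univ z), meromorphicOrderAt_mul (hfm z) (hgm z).inv,
      meromorphicOrderAt_inv, e]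
    obtain ⟨q, hq⟩ := WithTop.ne_top_iff_exists.1 (hgo z)
    rw [← hq]
    show (((q + -q : ℤ)) : WithTop ℤ).untop₀ = 0
    simp
  obtain ⟨B, hB, hT⟩ := exists_characteristic_le h
  obtain ⟨B', hB', hT'⟩ := exists_characteristic_le h'
  obtain ⟨K, hK⟩ : ∃ K, K = FA.Nevanlinna.invConst g + 2 * (Real.posLog ‖c‖ + Real.log 2) :=
    ⟨_, rfl⟩
  have hK0 : 0 ≤ K := by
    have h1 := FA.Nevanlinna.invConst_nonneg g
    have h2 : 0 ≤ Real.log 2 := Real.log_nonneg one_le_two
    have h3 : 0 ≤ Real.posLog ‖c‖ := Real.posLog_nonneg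
    linarith
  obtain ⟨⟨H, α, hH, hGeq⟩, -⟩ := exists_exp_factor hGm hGord ((finite_singleton 1).subset hsub)
    (A := degree lam / π + degree lam' / π) (B := B + B' + K) fun R hR => by
      have h1 := characteristic_mul_top_le (r := R) (by linarith) hfm hfo hgm.inv
        (fun z => by rw [meromorphicOrderAt_inv]; simpa using hgo z)
      have h3 := (FA.Nevanlinna.characteristic_shift_le (meromorphic_lVal h) c R).1
      have h4 := (FA.Nevanlinna.characteristic_shift_le (meromorphic_lVal h') c R).1
      have h5 := abs_le.1 (characteristic_sub_characteristic_inv_le (R := R) hgm)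
      have h6 : 0 ≤ ValueDistribution.logCounting (f * g⁻¹) ⊤ R := logCounting_nonneg (by linarith)
      have h7 : K ≤ K * R := le_mul_of_one_le_right hK0 (by linarith)
      have h8 : characteristic (f * g⁻¹) ⊤ R =
        proximity (f * g⁻¹) ⊤ R + ValueDistribution.logCounting (f * g⁻¹) ⊤ R := rfl
      have h9 : max |Real.log ‖g 0‖| |Real.log ‖meromorphicTrailingCoeffAt g 0‖| =
        FA.Nevanlinna.invConst g := rfl
      simp only [Pi.add_apply] at h1
      rw [← hf] at h3
      rw [← hg] at h4
      rw [h9] at h5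
      linarith [hT R hR, hT' R hR]
  obtain ⟨k, hk⟩ : ∃ k : ℤ, k = divisor (f * g⁻¹) univ 1 := ⟨_, rfl⟩
  refine coeff_eq_of_ratio (hasDegree_of h he) (hasDegree_of h' he') hat hbt (k := k) hH
    (α := α) (fun x hx => ?_) hn
  have hre : 1 < (x : ℂ).re := by simpa using hx
  have hx1 : (x : ℂ) ≠ 1 := fun e => by rw [e, one_re] at hre; exact lt_irrefl _ hre
  have hlim : f =ᶠ[𝓝[≠] (x : ℂ)] fun z => (z - 1) ^ k * (H * cexp (α * z)) * g z := by
    filter_upwards [FA.Nevanlinna.eventuallyEq_nhdsNE_of_codiscrete hGeq (x : ℂ),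
      (meromorphicOrderAt_ne_top_iff_eventually_ne_zero (hgm _)).1 (hgo x)] with z hz hgz
    rw [Finset.prod_subset (Finset.subset_singleton_iff'.2 fun u hu =>
        hsub ((Set.Finite.mem_toFinset _).1 hu)) (fun u _ hu => by
      rw [Set.Finite.mem_toFinset, Function.mem_support, not_not] at hu
      rw [hu, zpow_zero]), Finset.prod_singleton, ← hk, Pi.mul_apply, Pi.inv_apply] at hz
    rw [← hz, mul_assoc, inv_mul_cancel₀ hgz, mul_one]
  have hcf : ContinuousAt f x := hf ▸ ((analyticAt_lVal h hx1).sub analyticAt_const).continuousAt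
  have hcg : ContinuousAt (fun z => (z - 1) ^ k * (H * cexp (α * z)) * g z) x := by
    refine ((((continuous_id.sub continuous_const).continuousAt).zpow₀ k
      (Or.inl (sub_ne_zero.2 hx1))).mul (by fun_prop)).mul ?_
    exact hg ▸ ((analyticAt_lVal h' hx1).sub analyticAt_const).continuousAt
  have hkey := tendsto_nhds_unique (hcf.tendsto.mono_left nhdsWithin_le_nhds)
    ((hcg.tendsto.mono_left nhdsWithin_le_nhds).congr' hlim.symm)
  simpa [hf, hg, lVal_eq_series h hre, lVal_eq_series h' hre] using hkey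

theorem logCounting_neg_top {g : ℂ → ℂ} (hg : Meromorphic g) :
    ValueDistribution.logCounting (-g) ⊤ = ValueDistribution.logCounting g ⊤ := by
  have hgn : Meromorphic (-g) := fun z => (hg z).neg
  rw [logCounting_top, logCounting_top,
    show divisor (-g) univ = divisor g univ from Function.locallyFinsuppWithin.ext fun z => by
      rw [divisor_apply hgn.meromorphicOn (mem_univ z),
        divisor_apply hg.meromorphicOn (mem_univ z), ← meromorphicOrderAt_neg]]

theorem posLog_norm_sub_le (x y : ℂ) :
    Real.posLog ‖x - y‖ ≤ max (Real.posLog ‖x‖) (Real.posLog ‖y‖) + Real.log 2 := by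
  have h1 : ‖x - y‖ ≤ 2 * max ‖x‖ ‖y‖ := (norm_sub_le x y).trans
    (by linarith [le_max_left ‖x‖ ‖y‖, le_max_right ‖x‖ ‖y‖])
  refine (Real.posLog_le_posLog (norm_nonneg _) h1).trans (Real.posLog_mul.trans ?_)
  rw [add_comm]
  refine add_le_add ?_ ?_
  · rcases le_total ‖x‖ ‖y‖ with h | h
    · rw [max_eq_right h]
      exact le_max_right _ _
    · rw [max_eq_left h]
      exact le_max_left _ _
  · rw [Real.posLog_eq_log (by norm_num)]

/-- **Inclusion of the points of three values.** -/
theorem coeff_eq_of_include (h : HasFunctionalEquation a m E lam mu Q omega)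
    (he : HasEulerProduct a) (h' : HasFunctionalEquation b m' E' lam' mu' Q' omega')
    {A : Finset ℂ} (hA : A.card = 3)
    (hinc : ∀ c ∈ A, ∀ s : ℂ, s ≠ 1 → lVal E m s = c → lVal E' m' s = c)
    (hdd : degree lam' < 2 * degree lam) {n : ℕ} (hn : n ≠ 0) : a n = b n := by
  classical
  by_contra hne
  have hd : 0 < degree lam := by linarith [degree_nonneg h']
  have hL := meromorphic_lVal h
  have hL' := meromorphic_lVal h'
  have hnL := nonconst_lVal h he hd
  have hneg : Meromorphic (-lVal E' m') := fun z => (hL' z).neg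
  obtain ⟨φ, hφ⟩ : ∃ φ : ℂ → ℂ, φ = fun z => lVal E m z - lVal E' m' z := ⟨_, rfl⟩
  have hφm : Meromorphic φ := hφ ▸ fun z => (hL z).sub (hL' z)
  have hφo : ∀ z, meromorphicOrderAt φ z ≠ ⊤ := by
    refine fun z => hφm.exists_meromorphicOrderAt_ne_top_iff_forall.1 ⟨2, fun htop => ?_⟩ z
    have han : AnalyticAt ℂ φ 2 :=
      hφ ▸ (analyticAt_lVal h (by norm_num)).sub (analyticAt_lVal h' (by norm_num))
    rw [han.meromorphicOrderAt_eq, ENat.map_eq_top_iff, analyticOrderAt_eq_top] at htop
    have hon : AnalyticOnNhd ℂ φ {z : ℂ | 1 < z.re} := fun z hz => by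
      have hz1 : z ≠ 1 := fun e => by rw [e] at hz; simp at hz
      exact hφ ▸ (analyticAt_lVal h hz1).sub (analyticAt_lVal h' hz1)
    have heq := hon.eqOn_zero_of_preconnected_of_eventuallyEq_zero
      (convex_halfSpace_re_gt 1).isPreconnected (show (2 : ℂ) ∈ {z : ℂ | 1 < z.re} by norm_num) htop
    refine hne (coeff_eq_of_eventually h h' (fun x hx => ?_) hn)
    have hre : 1 < (x : ℂ).re := by simpa using hx
    have h1 := heq hre
    simp only [hφ, Pi.zero_apply, lVal_eq_series h hre, lVal_eq_series h' hre, sub_eq_zero] at h1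
    exact h1
  have hattain : ∀ {z : ℂ}, z ≠ 1 → ∀ c : ℂ, AttainsAt (lVal E m) c z → lVal E m z = c :=
    fun hz c hc => tendsto_nhds_unique
      ((analyticAt_lVal h hz).continuousAt.tendsto.mono_left nhdsWithin_le_nhds)
      (FA.Nevanlinna.attainsAt_coe.1 hc)
  have hdiv : ∑ c ∈ A, reduceOnce (valueDivisor (lVal E m) c) ≤
      valueDivisor φ ((0 : ℂ) : WithTop ℂ) + Function.locallyFinsuppWithin.single 1 3 := by
    refine Function.locallyFinsuppWithin.le_def.2 fun z => ?_
    rw [Function.locallyFinsuppWithin.coe_sum, Finset.sum_apply,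
      Function.locallyFinsuppWithin.coe_add, Pi.add_apply,
      Function.locallyFinsuppWithin.single_apply]
    have h0 : 0 ≤ valueDivisor φ ((0 : ℂ) : WithTop ℂ) z :=
      Function.locallyFinsuppWithin.le_def.1 (FA.Nevanlinna.valueDivisor_nonneg φ _) z
    rcases eq_or_ne z 1 with rfl | hz
    · rw [if_pos rfl]
      refine (Finset.sum_le_card_nsmul A _ 1 fun c _ => ?_).trans ?_
      · rw [FA.Nevanlinna.reduceOnce_apply]
        exact min_le_right _ _
      · rw [hA, nsmul_eq_mul, mul_one, Nat.cast_ofNat]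
        linarith
    rw [if_neg hz, add_zero]
    by_cases hex : ∃ c ∈ A, AttainsAt (lVal E m) c z
    · obtain ⟨c, hc, hcz⟩ := hex
      rw [Finset.sum_eq_single c (fun c' _ hne' => by
          rw [FA.Nevanlinna.reduceOnce_valueDivisor_apply hL hnL,
            if_neg fun h'' : AttainsAt (lVal E m) c' z => hne' (h''.unique hcz)])
        (fun h'' => absurd hc h''), FA.Nevanlinna.reduceOnce_valueDivisor_apply hL hnL, if_pos hcz]
      have e := hattain hz c hcz
      have han : AnalyticAt ℂ φ z := hφ ▸ (analyticAt_lVal h hz).sub (analyticAt_lVal h' hz)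
      have hlim : Tendsto φ (𝓝[≠] z) (𝓝 0) := by
        have hzero : φ z = 0 := by rw [hφ]; simp [e, hinc c hc z hz e]
        exact hzero ▸ han.continuousAt.tendsto.mono_left nhdsWithin_le_nhds
      have hpos := (tendsto_zero_iff_meromorphicOrderAt_pos (hφm z)).1 hlim
      rw [FA.Nevanlinna.valueDivisor_coe, Function.locallyFinsuppWithin.posPart_apply,
        divisor_apply (FA.Nevanlinna.meromorphic_sub_const hφm 0).meromorphicOn (mem_univ z)]
      simp only [sub_zero]
      obtain ⟨q, hq⟩ := WithTop.ne_top_iff_exists.1 (hφo z)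
      rw [← hq] at hpos ⊢
      rw [WithTop.untop₀_coe, FA.Nevanlinna.int_posPart_eq]
      exact le_trans (by exact_mod_cast hpos) (le_max_left q 0)
    · push Not at hex
      rw [Finset.sum_eq_zero fun c hc => by
        rw [FA.Nevanlinna.reduceOnce_valueDivisor_apply hL hnL, if_neg (hex c hc)]]
      exact h0
  obtain ⟨D, hD⟩ : ∃ D, D = max (degree lam) (degree lam') := ⟨_, rfl⟩
  obtain ⟨B, hB, hb⟩ := exists_posLog_le h
  obtain ⟨B', hB', hb'⟩ := exists_posLog_le h'
  obtain ⟨Bc, hBc, hch⟩ := exists_characteristic h he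
  obtain ⟨K, hK0, hK⟩ := FA.Nevanlinna.exists_logCounting_le hφm ((0 : ℂ) : WithTop ℂ)
  have hlog : ∀ R : ℝ, 2 ≤ R → Real.log R ≤ R := fun R hR =>
    (Real.log_le_sub_one_of_pos (by linarith)).trans (by linarith)
  have hsum : ∀ R : ℝ, 2 ≤ R → ∑ c ∈ A, reducedCounting (lVal E m) c R ≤
      D / π * (R * Real.log R) + (B + B' + 1 + m + m' + K + 3) * R := fun R hR => by
    have hR1 : (1 : ℝ) ≤ R := by linarith
    have h1 := Function.locallyFinsuppWithin.logCounting_le hdiv hR1
    rw [map_sum, Finset.sum_apply, map_add, Pi.add_apply,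
      Function.locallyFinsuppWithin.logCounting_single_eq_log_sub_const (by simpa using hR1),
      norm_one, Real.log_one, sub_zero, ← FA.Nevanlinna.logCounting_eq_valueDivisor] at h1
    have h2 : proximity φ ⊤ R ≤ D / π * (R * Real.log R) + (B + B' + 1) * R := by
      refine proximity_le_of_bound hφm (by linarith) fun s hs => ?_
      rw [hφ]
      refine (posLog_norm_sub_le _ _).trans ?_
      have hp : 0 ≤ max (-s.re) 0 * Real.log ‖s‖ :=
        mul_nonneg (le_max_right _ _) (Real.log_nonneg (by linarith))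
      have e1 := mul_le_mul_of_nonneg_right (hD ▸ le_max_left (degree lam) (degree lam')) hp
      have e2 := mul_le_mul_of_nonneg_right (hD ▸ le_max_right (degree lam) (degree lam')) hp
      have e3 : 0 ≤ B * ‖s‖ := by positivity
      have e4 : 0 ≤ B' * ‖s‖ := by positivity
      have hm : max (Real.posLog ‖lVal E m s‖) (Real.posLog ‖lVal E' m' s‖) ≤
          D * max (-s.re) 0 * Real.log ‖s‖ + (B + B') * ‖s‖ :=
        max_le ((hb s (hs ▸ hR)).trans (by linarith)) ((hb' s (hs ▸ hR)).trans (by linarith))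
      linarith [Real.log_le_sub_one_of_pos (two_pos (α := ℝ))]
    have h3 : ValueDistribution.logCounting φ ⊤ R ≤ (m + m') * R := by
      rw [show φ = lVal E m + -lVal E' m' by rw [hφ]; funext z; simp [sub_eq_add_neg]]
      refine (logCounting_add_top_le hL hneg hR1).trans ?_
      rw [Pi.add_apply, logCounting_neg_top hL', add_mul]
      exact add_le_add ((logCounting_pole_le h hR1).trans
          (mul_le_mul_of_nonneg_left (hlog R hR) (Nat.cast_nonneg m)))
        ((logCounting_pole_le h' hR1).trans
          (mul_le_mul_of_nonneg_left (hlog R hR) (Nat.cast_nonneg m')))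
    have h4 : characteristic φ ⊤ R =
      proximity φ ⊤ R + ValueDistribution.logCounting φ ⊤ R := rfl
    have h5 := hK R hR1
    have h6 : K ≤ K * R := le_mul_of_one_le_right hK0 hR1
    have h7 : ((3 : ℤ) : ℝ) * Real.log R ≤ 3 * R := by
      push_cast
      linarith [hlog R hR]
    refine le_trans h1 ((add_le_add h5 h7).trans ?_)
    linarith
  obtain ⟨η, hη⟩ : ∃ η, η = (2 * degree lam - D) / (2 * degree lam) := ⟨_, rfl⟩
  have hD2 : D < 2 * degree lam := hD ▸ max_lt (by linarith) hdd
  have hη0 : 0 < η := hη ▸ div_pos (by linarith) (by linarith)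
  have hη1 : η ≤ 1 := by
    rw [hη, div_le_iff₀ (by linarith), one_mul]
    linarith [hD ▸ le_max_left (degree lam) (degree lam')]
  have hηd : (2 - η) * degree lam - D = (2 * degree lam - D) / 2 := by
    rw [hη]
    field_simp
    ring
  obtain ⟨C, -, S, hS, hsmt⟩ := FA.Nevanlinna.second_main hL hnL A
  have hc : 0 < ((2 - η) * degree lam - D) / π :=
    div_pos (by rw [hηd]; linarith) Real.pi_pos
  obtain ⟨R, hRS, hR2, hsmall, hbig⟩ := (hS.frequently_notMem.and_eventually
    ((eventually_ge_atTop (2 : ℝ)).and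
      (((FA.Nevanlinna.tendsto_characteristic hL hnL).eventually
        (FA.Nevanlinna.eventually_log_lt (C := C) hη0)).and
        ((Real.tendsto_log_atTop.const_mul_atTop hc).eventually_ge_atTop
          (2 * Bc + m + (B + B' + 1 + m + m' + K + 3) + 1))))).exists
  have hR0 : 0 < R := by linarith
  have e1 := hsmt R (by linarith) hRS
  rw [hA] at e1
  push_cast at e1
  have e2 : reducedCounting (lVal E m) ⊤ R ≤ m * R :=
    (FA.Nevanlinna.reducedCounting_le _ _ (by linarith)).trans
      ((logCounting_pole_le h (by linarith)).trans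
        (mul_le_mul_of_nonneg_left (hlog R hR2) (Nat.cast_nonneg m)))
  have e3 := hsum R hR2
  have e4 := mul_le_mul_of_nonneg_left (abs_le.1 (hch R hR2).1).1 (show 0 ≤ 2 - η by linarith)
  have e5 := mul_le_mul_of_nonneg_right hbig hR0.le
  have e6 : 0 ≤ η * (Bc * R) := by positivity
  have e7 : ((2 - η) * degree lam - D) / π * Real.log R * R =
      (2 - η) * (degree lam / π * (R * Real.log R)) - D / π * (R * Real.log R) := by ring
  linarith

/-- **Three values without multiplicity.** -/
theorem coeff_eq_of_share_three (h : HasFunctionalEquation a m E lam mu Q omega)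
    (he : HasEulerProduct a) (h' : HasFunctionalEquation b m' E' lam' mu' Q' omega')
    (he' : HasEulerProduct b) {A : Finset ℂ} (hA : A.card = 3)
    (hshare : ∀ c ∈ A, ∀ s : ℂ, s ≠ 1 → (lVal E m s = c ↔ lVal E' m' s = c))
    {n : ℕ} (hn : n ≠ 0) : a n = b n := by
  have hd0 := degree_nonneg h
  have hd0' := degree_nonneg h'
  rcases lt_or_ge (degree lam') (2 * degree lam) with hlt | hge
  · exact coeff_eq_of_include h he h' hA (fun c hc s hs => (hshare c hc s hs).1) hlt hn
  rcases hd0'.eq_or_lt with hz | hpos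
  · have hza : degree lam = 0 := le_antisymm (by linarith) hd0
    rcases Nat.lt_or_ge 1 n with h1 | h1
    · rw [(hasDegree_of h he).eq_zero_iff.1 hza n h1,
        (hasDegree_of h' he').eq_zero_iff.1 hz.symm n h1]
    · rw [show n = 1 by omega, he.map_one, he'.map_one]
  · exact (coeff_eq_of_include h' he' h hA (fun c hc s hs => (hshare c hc s hs).2)
      (by linarith) hn).symm

/-- Equal coefficients give equal functions. -/
theorem eq_of_coeff (h : HasFunctionalEquation a m E lam mu Q omega) (he : HasEulerProduct a)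
    (h' : HasFunctionalEquation b m' E' lam' mu' Q' omega') (he' : HasEulerProduct b)
    (hab : ∀ n, n ≠ 0 → a n = b n) :
    degree lam = degree lam' ∧ ∀ s : ℂ, s ≠ 1 → lVal E m s = lVal E' m' s := by
  refine ⟨((hasDegree_of h he).congr hab).unique (hasDegree_of h' he'), fun s hs => ?_⟩
  have hU : IsPreconnected ({1}ᶜ : Set ℂ) :=
    (isConnected_compl_singleton_of_one_lt_rank (by simp) 1).isPreconnected
  refine (AnalyticOnNhd.eqOn_of_preconnected_of_eventuallyEq
    (fun z hz => analyticAt_lVal h hz) (fun z hz => analyticAt_lVal h' hz) hU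
    (show (2 : ℂ) ∈ ({1}ᶜ : Set ℂ) by norm_num) ?_) hs
  filter_upwards [(isOpen_lt continuous_const Complex.continuous_re).mem_nhds
    (show (1 : ℝ) < (2 : ℂ).re by norm_num)] with z hz
  rw [lVal_eq_series h hz, lVal_eq_series h' hz]
  exact LSeries_congr (fun {n} hn => hab n hn) z

end FA.SelbergValues

end
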